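import Mathlib

/-!
# PROJECT D (S48), part B, block B2, brick (A): Galois bookkeeping for a permuted family (helper12)

Pure field theory, Mathlib only.  `K` a field, `Ω` a field over `K`, `y : I → Ω` a family,
`FF K y = K(y_i)`.  A finite group `G` permutes the indices through `ρ : G →* Equiv.Perm I`.

* `HasPerm K y ρ` : every `g` is realised by a `K`-automorphism `σ_g` of `FF K y` with
  `σ_g (y i) = y (ρ g i)` (this is the output of the permutation principle: equal kernels of the
  formal evaluations);
* `HasInv K y ρ i₀` : a polynomial expression in the `y i` which is invariant under all the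
  permutations lies in `K(y i₀)` (this is the output of the level-one theorem);
* `act0` : the homomorphism `G →* (FF K y ≃ₐ[K] FF K y)`;
* `mem_base_of_fixed` : the fixed field of `G` is `base K y i₀ = K(y i₀)` (norm trick);
* `isGalois`, `finiteDimensional`, `act`, `act_surjective`, `act_eq_one_iff` : Artin.
-/

set_option autoImplicit false

noncomputable section

namespace Fermat.Agent.S48.B.Igusa.Full.GalPerm

open IntermediateField MvPolynomial

variable (K : Type*) {Ω : Type*} [Field K] [Field Ω] [Algebra K Ω]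
variable {I : Type*} (y : I → Ω)

/-- the field generated over `K` by the family -/
def FF : IntermediateField K Ω := adjoin K (Set.range y)

/-- the generators as elements of `FF` -/
def gen (i : I) : FF K y := ⟨y i, subset_adjoin K _ ⟨i, rfl⟩⟩

theorem coe_gen (i : I) : ((gen K y i : FF K y) : Ω) = y i := rfl

theorem coe_aeval (f : I → FF K y) (P : MvPolynomial I K) :
    ((aeval f P : FF K y) : Ω) = aeval (fun i => ((f i : FF K y) : Ω)) P :=
  comp_aeval_apply (f := f) (FF K y).val P

theorem coe_aeval_gen (P : MvPolynomial I K) :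
    ((aeval (gen K y) P : FF K y) : Ω) = aeval y P :=
  coe_aeval K y (gen K y) P

variable {G : Type*} [Group G] (ρ : G →* Equiv.Perm I)

/-- every `g` is realised by a `K`-automorphism permuting the generators -/
def HasPerm : Prop :=
  ∀ g : G, ∃ σ : FF K y ≃ₐ[K] FF K y, ∀ i, σ (gen K y i) = gen K y (ρ g i)

/-- a polynomial expression invariant under all the permutations lies in `K(y i₀)` -/
def HasInv (i₀ : I) : Prop :=
  ∀ P : MvPolynomial I K, (∀ g : G, aeval (fun i => y (ρ g i)) P = aeval y P) →
    aeval y P ∈ adjoin K {y i₀}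

variable {K y}

theorem algEquiv_ext {σ τ : FF K y ≃ₐ[K] FF K y}
    (h : ∀ i, σ (gen K y i) = τ (gen K y i)) : σ = τ := by
  have h1 : (σ : FF K y →ₐ[K] FF K y) = (τ : FF K y →ₐ[K] FF K y) :=
    adjoin_algHom_ext K (by rintro x ⟨i, rfl⟩; exact h i)
  exact AlgEquiv.coe_toAlgHom_injective h1

variable {ρ}

/-- the automorphism attached to `g` -/
def sig (h : HasPerm K y ρ) (g : G) : FF K y ≃ₐ[K] FF K y := (h g).choose

theorem sig_gen (h : HasPerm K y ρ) (g : G) (i : I) :
    sig h g (gen K y i) = gen K y (ρ g i) := (h g).choose_spec i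

/-- the action as a homomorphism -/
def act0 (h : HasPerm K y ρ) : G →* (FF K y ≃ₐ[K] FF K y) where
  toFun := sig h
  map_one' := algEquiv_ext fun i => by
    rw [sig_gen, map_one]; rfl
  map_mul' g g' := algEquiv_ext fun i => by
    rw [sig_gen, AlgEquiv.mul_apply, sig_gen, sig_gen, map_mul]; rfl

theorem act0_apply (h : HasPerm K y ρ) (g : G) : act0 h g = sig h g := rfl

theorem sig_mul (h : HasPerm K y ρ) (g g' : G) (z : FF K y) :
    sig h (g * g') z = sig h g (sig h g' z) := by
  rw [← act0_apply, map_mul]; rfl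

theorem sig_one (h : HasPerm K y ρ) (z : FF K y) : sig h 1 z = z := by
  rw [← act0_apply, map_one]; rfl

theorem sig_aeval (h : HasPerm K y ρ) (g : G) (P : MvPolynomial I K) :
    sig h g (aeval (gen K y) P) = aeval (gen K y) (rename (ρ g) P) := by
  rw [aeval_rename]
  have := comp_aeval_apply (f := gen K y) (sig h g : FF K y →ₐ[K] FF K y) P
  rw [AlgEquiv.coe_toAlgHom] at this
  rw [this]
  have h2 : (fun i => sig h g (gen K y i)) = gen K y ∘ ρ g := by
    funext i
    exact sig_gen h g i
  rw [h2]

theorem coe_sig_aeval (h : HasPerm K y ρ) (g : G) (P : MvPolynomial I K) :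
    ((sig h g (aeval (gen K y) P) : FF K y) : Ω) = aeval (fun i => y (ρ g i)) P := by
  rw [sig_aeval, coe_aeval_gen, aeval_rename]
  rfl

variable (K y) in
/-- the base field `K(y i₀)` inside `FF K y` -/
def base (i₀ : I) : IntermediateField K (FF K y) := adjoin K {gen K y i₀}

theorem mem_base_iff (i₀ : I) (w : FF K y) :
    w ∈ base K y i₀ ↔ (w : Ω) ∈ adjoin K {y i₀} := by
  have h1 : (base K y i₀).map (FF K y).val = adjoin K {y i₀} := by
    rw [base, adjoin_map, Set.image_singleton]
    rfl
  rw [← h1]
  constructor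
  · intro hw
    exact ⟨w, hw, rfl⟩
  · rintro ⟨w', hw', hww'⟩
    have : w' = w := Subtype.ext hww'
    rw [← this]
    exact hw'

theorem sig_base (h : HasPerm K y ρ) {i₀ : I} (hi₀ : ∀ g : G, ρ g i₀ = i₀) (g : G)
    {w : FF K y} (hw : w ∈ base K y i₀) : sig h g w = w := by
  have key := (forall_mem_adjoin_smul_eq_self_iff K (S := {gen K y i₀}) (sig h g)).2 (by
    intro x hx
    rw [Set.mem_singleton_iff] at hx
    rw [hx, AlgEquiv.smul_def, sig_gen, hi₀])
  exact key w hw

theorem sig_ne_zero (h : HasPerm K y ρ) (g : G) {b : FF K y} (hb : b ≠ 0) : sig h g b ≠ 0 :=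
  fun h0 => hb ((map_eq_zero_iff _ (sig h g).injective).1 h0)

/-- **the fixed field** : an element of `FF K y` fixed by all the `σ_g` lies in `K(y i₀)`. -/
theorem mem_base_of_fixed [Finite G] (h : HasPerm K y ρ) {i₀ : I} (hinv : HasInv K y ρ i₀)
    (z : FF K y) (hz : ∀ g, sig h g z = z) : z ∈ base K y i₀ := by
  classical
  cases nonempty_fintype G
  obtain ⟨A, B, hAB⟩ := (mem_adjoin_range_iff K y (z : Ω)).1 z.2
  set a : FF K y := aeval (gen K y) A with ha
  set b : FF K y := aeval (gen K y) B with hb
  have hzab : z = a / b := by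
    apply Subtype.ext
    rw [IntermediateField.coe_div, ha, hb, coe_aeval_gen, coe_aeval_gen]
    exact hAB
  by_cases hb0 : b = 0
  · rw [hzab, hb0, div_zero]
    exact zero_mem _
  let PN : MvPolynomial I K := ∏ g : G, rename (ρ g) B
  let PA : MvPolynomial I K := A * ∏ g ∈ (Finset.univ.erase (1 : G)), rename (ρ g) B
  have hN : aeval (gen K y) PN = ∏ g : G, sig h g b := by
    rw [map_prod]
    exact Finset.prod_congr rfl fun g _ => (sig_aeval h g B).symm
  have hA : aeval (gen K y) PA = a * ∏ g ∈ Finset.univ.erase (1 : G), sig h g b := by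
    rw [map_mul, map_prod]
    congr 1
    exact Finset.prod_congr rfl fun g _ => (sig_aeval h g B).symm
  have hNb : ∏ g : G, sig h g b = b * ∏ g ∈ Finset.univ.erase (1 : G), sig h g b := by
    rw [← Finset.mul_prod_erase Finset.univ _ (Finset.mem_univ (1 : G)), sig_one]
  have hzN : z * ∏ g : G, sig h g b = aeval (gen K y) PA := by
    rw [hA, hNb, hzab]
    field_simp
  have hNinv : ∀ g', sig h g' (∏ g : G, sig h g b) = ∏ g : G, sig h g b := by
    intro g'
    rw [map_prod]
    have h1 : ∀ g : G, sig h g' (sig h g b) = sig h (g' * g) b := fun g => (sig_mul h g' g b).symm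
    rw [Finset.prod_congr rfl fun g _ => h1 g]
    exact Fintype.prod_equiv (Equiv.mulLeft g') _ _ fun g => rfl
  have hN0 : ∏ g : G, sig h g b ≠ 0 :=
    Finset.prod_ne_zero_iff.2 fun g _ => sig_ne_zero h g hb0
  have hNmem : (∏ g : G, sig h g b) ∈ base K y i₀ := by
    rw [mem_base_iff, ← hN, coe_aeval_gen]
    apply hinv
    intro g'
    rw [← coe_sig_aeval h g' PN, hN, hNinv g', ← hN, coe_aeval_gen]
  have hAmem : z * (∏ g : G, sig h g b) ∈ base K y i₀ := by
    rw [hzN, mem_base_iff, coe_aeval_gen]
    apply hinv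
    intro g'
    rw [← coe_sig_aeval h g' PA, ← hzN, map_mul, hz g', hNinv g', hzN, coe_aeval_gen]
  have hfin : z = (z * ∏ g : G, sig h g b) / (∏ g : G, sig h g b) := by
    field_simp
  rw [hfin]
  exact div_mem hAmem hNmem

/-! ### Artin -/

section Artin

variable [Finite G] (h : HasPerm K y ρ) {i₀ : I} (hi₀ : ∀ g : G, ρ g i₀ = i₀)
  (hinv : HasInv K y ρ i₀)

/-- the action of `G` on `FF K y` through `act0` -/
@[reducible] def mulSemiringAction : MulSemiringAction G (FF K y) :=
  MulSemiringAction.compHom (FF K y) (act0 h)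

include hi₀ hinv in
theorem mem_fixedPoints_iff (z : FF K y) :
    letI := mulSemiringAction h
    z ∈ FixedPoints.subfield G (FF K y) ↔ z ∈ base K y i₀ := by
  let _ := mulSemiringAction h
  constructor
  · intro hz
    exact mem_base_of_fixed h hinv z fun g => hz g
  · intro hz g
    exact sig_base h hi₀ g hz

/-- the identification of the fixed subfield with `base`, as a ring isomorphism -/
def fixedEquiv :
    letI := mulSemiringAction h
    ↥(FixedPoints.subfield G (FF K y)) ≃+* ↥(base K y i₀) :=
  letI := mulSemiringAction h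
  { toFun := fun x => ⟨x.1, (mem_fixedPoints_iff h hi₀ hinv x.1).1 x.2⟩
    invFun := fun x => ⟨x.1, (mem_fixedPoints_iff h hi₀ hinv x.1).2 x.2⟩
    left_inv := fun _ => rfl
    right_inv := fun _ => rfl
    map_mul' := fun _ _ => rfl
    map_add' := fun _ _ => rfl }

include h hi₀ hinv in
/-- **Artin** : `FF K y` is Galois over `K(y i₀)`. -/
theorem isGalois_base : IsGalois (base K y i₀) (FF K y) := by
  let _ := mulSemiringAction h
  exact IsGalois.of_equiv_equiv (F := ↥(FixedPoints.subfield G (FF K y))) (E := FF K y)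
    (f := fixedEquiv h hi₀ hinv) (g := RingEquiv.refl _) (by ext x; rfl)

include h hi₀ hinv in
theorem finiteDimensional_base : FiniteDimensional (base K y i₀) (FF K y) := by
  let _ := mulSemiringAction h
  exact Module.Finite.of_equiv_equiv (A₁ := ↥(FixedPoints.subfield G (FF K y))) (B₁ := FF K y)
    (fixedEquiv h hi₀ hinv) (RingEquiv.refl _) (by ext x; rfl)

include hi₀ in
/-- the action as a homomorphism into the automorphisms over the base -/
def act : G →* (FF K y ≃ₐ[base K y i₀] FF K y) where
  toFun g := AlgEquiv.ofRingEquiv (f := (sig h g).toRingEquiv) fun x => sig_base h hi₀ g x.2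
  map_one' := AlgEquiv.ext fun z => sig_one h z
  map_mul' g g' := AlgEquiv.ext fun z => sig_mul h g g' z

omit [Finite G] in
theorem act_apply (g : G) (z : FF K y) : act h hi₀ g z = sig h g z := rfl

omit [Finite G] in
theorem act_gen (g : G) (i : I) : act h hi₀ g (gen K y i) = gen K y (ρ g i) := sig_gen h g i

include hinv in
/-- **Artin** : every automorphism over the base comes from the group. -/
theorem act_surjective : Function.Surjective (act h hi₀) := by
  let _ := mulSemiringAction h
  intro τ
  have hτ : ∀ x : ↥(FixedPoints.subfield G (FF K y)),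
      τ.toRingEquiv (algebraMap _ (FF K y) x) = algebraMap _ (FF K y) x := by
    intro x
    exact τ.commutes (fixedEquiv h hi₀ hinv x)
  obtain ⟨g, hg⟩ := FixedPoints.toAlgAut_surjective G (FF K y)
    (AlgEquiv.ofRingEquiv (f := τ.toRingEquiv) hτ)
  refine ⟨g, AlgEquiv.ext fun z => ?_⟩
  have := DFunLike.congr_fun hg z
  exact this

theorem act_eq_one_iff (g : G) : act h hi₀ g = 1 ↔ ∀ i, y (ρ g i) = y i := by
  constructor
  · intro hg i
    have := DFunLike.congr_fun hg (gen K y i)
    rw [act_gen] at this
    exact congrArg Subtype.val this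
  · intro hg
    refine AlgEquiv.ext fun z => ?_
    have h1 : sig h g = 1 := algEquiv_ext fun i => by
      rw [sig_gen]
      exact Subtype.ext (hg i)
    rw [act_apply, h1]
    rfl

end Artin

end Fermat.Agent.S48.B.Igusa.Full.GalPerm

end
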