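import Mathlib
import Fermat.Agent.S24.Degree
import Fermat.Agent.S30.Descent.Cap
import Fermat.Agent.S48.B.Igusa.Full.GalPerm

/-!
# PROJECT D (S48), part B, block B2, brick (A): coefficient extension `K((q)) → L((q))` for a
permuted family (helper12)

`ι : K →+* L` a homomorphism of fields, `y : I → K((q))`, `yL : I → L((q))` with
`coeffMap ι (y i) = yL i`.

* `coeffMap_mem_FF` : `coeffMap ι` maps `K(y)` into `L(yL)`;
* `mem_FF_of_coeffMap_mem` : conversely a series over `K` whose image lies in `L(yL)` lies in `K(y)`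
  (linear disjointness, main's `S30/Descent/Cap`);
* `coeffMap_sig` : the automorphisms `σ_g` of `K(y)` and of `L(yL)` correspond.
-/

set_option autoImplicit false
set_option linter.unusedSectionVars false

noncomputable section

namespace Fermat.Agent.S48.B.Igusa.Full.BaseChange

open IntermediateField ModularCurve
open Fermat.Agent.S48.B.Igusa.Full.GalPerm

variable {K L : Type*} [Field K] [Field L] (ι : K →+* L)
variable {I : Type*} {y : I → LaurentSeries K} {yL : I → LaurentSeries L}

theorem coeffMap_aeval_eq (hy : ∀ i, coeffMap ι (y i) = yL i) (P : MvPolynomial I K) :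
    coeffMap ι (MvPolynomial.aeval y P) = MvPolynomial.aeval yL (MvPolynomial.map ι P) := by
  rw [Fermat.Agent.S24.Degree.coeffMap_aeval]
  have h1 : (fun s => coeffMap ι (y s)) = yL := funext hy
  rw [h1]

theorem aeval_mem_FF (P : MvPolynomial I L) : MvPolynomial.aeval yL P ∈ FF L yL := by
  rw [← coe_aeval_gen]
  exact (MvPolynomial.aeval (gen L yL) P).2

/-- `coeffMap ι` maps `K(y)` into `L(yL)` -/
theorem coeffMap_mem_FF (hy : ∀ i, coeffMap ι (y i) = yL i) {x : LaurentSeries K}
    (hx : x ∈ FF K y) : coeffMap ι x ∈ FF L yL := by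
  obtain ⟨A, B, hAB⟩ := (mem_adjoin_range_iff K y x).1 hx
  rw [hAB, map_div₀, coeffMap_aeval_eq ι hy, coeffMap_aeval_eq ι hy]
  exact div_mem (aeval_mem_FF _) (aeval_mem_FF _)

/-- **descent** : a series over `K` whose coefficient extension lies in `L(yL)` lies in `K(y)` -/
theorem mem_FF_of_coeffMap_mem (hy : ∀ i, coeffMap ι (y i) = yL i) {x : LaurentSeries K}
    (hx : coeffMap ι x ∈ FF L yL) : x ∈ FF K y := by
  let _ : Algebra K L := ι.toAlgebra
  apply Fermat.Agent.S30.Descent.Cap.mem_of_coeffMap_mem_adjoin (K' := L) (FF K y)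
  have h1 : FF L yL ≤ IntermediateField.adjoin L
      ((Fermat.Agent.S30.Descent.Cap.bcL : LaurentSeries K → LaurentSeries L) ''
        ((FF K y : IntermediateField K (LaurentSeries K)) : Set (LaurentSeries K))) := by
    unfold FF
    rw [adjoin_le_iff]
    rintro z ⟨i, rfl⟩
    refine subset_adjoin L _ ⟨y i, subset_adjoin K _ ⟨i, rfl⟩, ?_⟩
    exact hy i
  exact h1 hx

/-- **the automorphisms correspond** -/
theorem coeffMap_sig {G : Type*} [Group G] {ρ : G →* Equiv.Perm I}
    (hy : ∀ i, coeffMap ι (y i) = yL i) (h : HasPerm K y ρ) (hL : HasPerm L yL ρ) (g : G)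
    (x : FF K y) :
    coeffMap ι ((sig h g x : FF K y) : LaurentSeries K) =
      ((sig hL g ⟨coeffMap ι (x : LaurentSeries K), coeffMap_mem_FF ι hy x.2⟩ : FF L yL) :
        LaurentSeries L) := by
  obtain ⟨A, B, hAB⟩ := (mem_adjoin_range_iff K y (x : LaurentSeries K)).1 x.2
  have hx : x = MvPolynomial.aeval (gen K y) A / MvPolynomial.aeval (gen K y) B := by
    apply Subtype.ext
    rw [IntermediateField.coe_div, coe_aeval_gen, coe_aeval_gen]
    exact hAB
  have hxL : (⟨coeffMap ι (x : LaurentSeries K), coeffMap_mem_FF ι hy x.2⟩ : FF L yL) =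
      MvPolynomial.aeval (gen L yL) (MvPolynomial.map ι A) /
        MvPolynomial.aeval (gen L yL) (MvPolynomial.map ι B) := by
    apply Subtype.ext
    rw [IntermediateField.coe_div, coe_aeval_gen, coe_aeval_gen]
    show coeffMap ι (x : LaurentSeries K) = _
    rw [hAB, map_div₀, coeffMap_aeval_eq ι hy, coeffMap_aeval_eq ι hy]
  have hyρ : ∀ i, coeffMap ι (y (ρ g i)) = yL (ρ g i) := fun i => hy _
  rw [hxL, map_div₀, IntermediateField.coe_div, coe_sig_aeval, coe_sig_aeval]
  rw [hx, map_div₀, IntermediateField.coe_div, coe_sig_aeval, coe_sig_aeval, map_div₀,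
    coeffMap_aeval_eq ι hyρ, coeffMap_aeval_eq ι hyρ]

end Fermat.Agent.S48.B.Igusa.Full.BaseChange

end
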