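import Mathlib
import Fermat.Agent.S48.B.Igusa.Full.GalPerm

/-!
# PROJECT D (S48), part B, block B2, brick (A): enlarging a permuted family without enlarging the
field (helper12)

Pure field theory, Mathlib only (on top of `GalPerm`).  `y' : I' → Ω` a permuted family satisfying
`HasPerm` / `HasInv` (so that `K(y')` is Galois over `K(y' i₀')` with group the image of `G`), and
`y = y' ∘ e` a subfamily containing the base generator.  If every `g` fixing the subfamily
pointwise fixes the whole family, then `K(y') = K(y)` (Galois correspondence).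
-/

set_option autoImplicit false

noncomputable section

namespace Fermat.Agent.S48.B.Igusa.Full.GalExt

open IntermediateField
open Fermat.Agent.S48.B.Igusa.Full.GalPerm

variable {K : Type*} {Ω : Type*} [Field K] [Field Ω] [Algebra K Ω]
variable {I I' : Type*} {y : I → Ω} {y' : I' → Ω}
variable {G : Type*} [Group G] [Finite G] {ρ' : G →* Equiv.Perm I'}

/-- **an extended family with the same kernel generates the same field** -/
theorem FF_le_of_kernel (e : I → I') (he : ∀ i, y' (e i) = y i)
    (h' : HasPerm K y' ρ') {i₀ : I} (hi₀ : ∀ g : G, ρ' g (e i₀) = e i₀)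
    (hinv' : HasInv K y' ρ' (e i₀))
    (hker : ∀ g : G, (∀ i, y' (ρ' g (e i)) = y' (e i)) → ∀ j, y' (ρ' g j) = y' j) :
    FF K y' ≤ FF K y := by
  have hgal : IsGalois (base K y' (e i₀)) (FF K y') := isGalois_base h' hi₀ hinv'
  have hfin : FiniteDimensional (base K y' (e i₀)) (FF K y') := finiteDimensional_base h' hi₀ hinv'
  -- the preimage of `FF K y` in `FF K y'`
  set C : IntermediateField K (FF K y') := (FF K y).comap (FF K y').val with hC
  have hmemC : ∀ z : FF K y', z ∈ C ↔ (z : Ω) ∈ FF K y := fun z => Iff.rfl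
  have hgenC : ∀ i, gen K y' (e i) ∈ C := by
    intro i
    rw [hmemC, coe_gen, he]
    exact subset_adjoin K _ ⟨i, rfl⟩
  have hBC : base K y' (e i₀) ≤ C := by
    unfold base
    rw [adjoin_le_iff]
    intro x hx
    rw [Set.mem_singleton_iff] at hx
    rw [hx]
    exact hgenC i₀
  set C' : IntermediateField (base K y' (e i₀)) (FF K y') := extendScalars hBC with hC'
  have hfix : C'.fixingSubgroup = ⊥ := by
    rw [eq_bot_iff]
    intro σ hσ
    rw [Subgroup.mem_bot]
    obtain ⟨g, rfl⟩ := act_surjective h' hi₀ hinv' σ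
    rw [act_eq_one_iff h' hi₀ g]
    apply hker
    intro i
    have h1 : act h' hi₀ g (gen K y' (e i)) = gen K y' (e i) := by
      have h2 := (IntermediateField.mem_fixingSubgroup_iff C' _).1 hσ (gen K y' (e i))
        ((mem_extendScalars hBC).2 (hgenC i))
      exact h2
    rw [act_gen] at h1
    exact congrArg Subtype.val h1
  have htop : C' = ⊤ := by
    rw [← IsGalois.fixedField_fixingSubgroup C', hfix, IntermediateField.fixedField_bot]
  intro x hx
  have h3 : (⟨x, hx⟩ : FF K y') ∈ C' := by
    rw [htop]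
    exact IntermediateField.mem_top
  exact (hmemC ⟨x, hx⟩).1 ((mem_extendScalars hBC).1 h3)

/-- the subfamily generates a subfield -/
theorem FF_le_of_sub (e : I → I') (he : ∀ i, y' (e i) = y i) : FF K y ≤ FF K y' := by
  unfold FF
  rw [adjoin_le_iff]
  rintro x ⟨i, rfl⟩
  rw [← he]
  exact subset_adjoin K _ ⟨e i, rfl⟩

omit [Finite G] in
/-- **compatibility of the automorphisms of the subfamily and of the family** -/
theorem coe_sig_eq {ρ : G →* Equiv.Perm I} (e : I → I') (he : ∀ i, y' (e i) = y i)
    (h : HasPerm K y ρ) (h' : HasPerm K y' ρ') (hρ : ∀ g i, ρ' g (e i) = e (ρ g i)) (g : G)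
    (x : FF K y) :
    ((sig h g x : FF K y) : Ω) =
      ((sig h' g (inclusion (FF_le_of_sub e he) x) : FF K y') : Ω) := by
  let φ₁ : FF K y →ₐ[K] Ω := (FF K y).val.comp (sig h g : FF K y →ₐ[K] FF K y)
  let φ₂ : FF K y →ₐ[K] Ω :=
    (FF K y').val.comp ((sig h' g : FF K y' →ₐ[K] FF K y').comp (inclusion (FF_le_of_sub e he)))
  have h12 : φ₁ = φ₂ := by
    refine IntermediateField.adjoin_algHom_ext K ?_
    rintro z ⟨i, rfl⟩
    show ((sig h g (gen K y i) : FF K y) : Ω) =
      ((sig h' g (inclusion (FF_le_of_sub e he) (gen K y i)) : FF K y') : Ω)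
    have h1 : inclusion (FF_le_of_sub e he) (gen K y i) = gen K y' (e i) :=
      Subtype.ext (he i).symm
    rw [h1, sig_gen, sig_gen, coe_gen, coe_gen, hρ, he]
  exact DFunLike.congr_fun h12 x

end Fermat.Agent.S48.B.Igusa.Full.GalExt

end
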