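import Mathlib
import Fermat.Prelude.Def_ModularCurve_JqCoeff
import Fermat.Agent.S28.LaurentRescale
import Fermat.Agent.S48.B.Defs.Model
import Fermat.Agent.S48.B.Igusa.Full.GalPerm

/-!
# PROJECT D (S48), part B, block B2, brick (A): the full level-`M` field `FF_M`, formal definitions
(helper12)

Ambient: `LaurentSeries K` in helper8's variable `q`, `K` any field with a primitive `M`-th root of
unity `ζ`.  The elliptic curve is `E = Tate(q^M)`, `E[M] = ⟨q, ζ⟩`.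

* index `v = (r, s) : Fin 2 → ZMod M`  ↔  the point `q^r ζ^s` of `E`  ↔  `(r τ' + s)/M` on
  `ℤ + τ' ℤ`, `τ' = M τ` (row vectors; the analytic law is `Φ_v (γ τ') = Φ_{v γ} (τ')`);
* `zpw M ζ s = ζ ^ s` (`s : ZMod M`);
* `Xser M ζ v : PowerSeries K` : the series `X(q^r ζ^s, q^M)`; for `n ≥ 1` the coefficient of `q^n`
  is `∑_{d ∣ n} (n/d) ([d = r] ζ^{(n/d) s} + [d = -r] ζ^{-(n/d) s} - 2 [d = 0])` (congruences in
  `ZMod M`), the constant coefficient is `[r = 0] ζ^s / (1 - ζ^s)^2`; for `v = (a, 0)` this is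
  helper8's `tateX M a`;
* `fF M ζ v = (E₄E₆/Δ)(q^M) (12 X_v + 1)` : the Fricke function of the point `v`
  (`fF_row : fF M ζ ![a, 0] = frickeH K M a`);
* `jM K M = j(q^M)`, `FFull M ζ = K(j(q^M), f_v : v ≠ 0)`;
* `rescaleU_fF` : the substitution `q ↦ ζ q` sends `f_(r,s)` to `f_(r, s + r)` and fixes `j(q^M)`.
-/

set_option autoImplicit false
set_option linter.unusedSectionVars false

noncomputable section

namespace Fermat.Agent.S48.B.Igusa.Full.Defs

open ModularCurve HahnSeries IntermediateField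
open Fermat.Agent.S48.B.Defs.Model Fermat.Agent.S28.LaurentRescale

/-- the index set: row vectors `(r, s)`, the point `q^r ζ^s` of `Tate(q^M)` -/
abbrev Vec (M : ℕ) : Type := Fin 2 → ZMod M

variable {K : Type*} [Field K] (M : ℕ) [NeZero M] (ζ : K)

/-- `ζ ^ s` for `s : ZMod M` -/
def zpw (s : ZMod M) : K := ζ ^ s.val

theorem zpw_zero : zpw M ζ 0 = 1 := by
  unfold zpw
  rw [ZMod.val_zero, pow_zero]

variable {M ζ}

theorem zpw_natCast (hζ : ζ ^ M = 1) (n : ℕ) : zpw M ζ (n : ZMod M) = ζ ^ n := by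
  unfold zpw
  rw [ZMod.val_natCast, ← pow_eq_pow_mod n hζ]

theorem zpw_add (hζ : ζ ^ M = 1) (a b : ZMod M) : zpw M ζ (a + b) = zpw M ζ a * zpw M ζ b := by
  unfold zpw
  rw [ZMod.val_add, ← pow_eq_pow_mod _ hζ, _root_.pow_add]

theorem zpw_nsmul (hζ : ζ ^ M = 1) (k : ℕ) (a : ZMod M) : zpw M ζ (k • a) = zpw M ζ a ^ k := by
  induction k with
  | zero => rw [zero_smul, zpw_zero, pow_zero]
  | succ k ih => rw [succ_nsmul, zpw_add hζ, ih, pow_succ]

theorem zpw_neg_mul (hζ : ζ ^ M = 1) (a : ZMod M) : zpw M ζ (-a) * zpw M ζ a = 1 := by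
  rw [← zpw_add hζ, neg_add_cancel, zpw_zero]

theorem zpw_ne_zero (hζ : ζ ^ M = 1) (a : ZMod M) : zpw M ζ a ≠ 0 := by
  intro h
  have := zpw_neg_mul hζ a
  rw [h, mul_zero] at this
  exact zero_ne_one this

theorem zpw_neg (hζ : ζ ^ M = 1) (a : ZMod M) : zpw M ζ (-a) = (zpw M ζ a)⁻¹ :=
  eq_inv_of_mul_eq_one_left (zpw_neg_mul hζ a)

theorem zpw_eq_one_iff (hζ : IsPrimitiveRoot ζ M) (a : ZMod M) : zpw M ζ a = 1 ↔ a = 0 := by
  constructor
  · intro h
    unfold zpw at h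
    have h1 : M ∣ a.val := (hζ.pow_eq_one_iff_dvd _).1 h
    have h2 : a.val = 0 := Nat.eq_zero_of_dvd_of_lt h1 (ZMod.val_lt a)
    exact (ZMod.val_eq_zero a).1 h2
  · rintro rfl
    exact zpw_zero M ζ

theorem zpw_injective (hζ : IsPrimitiveRoot ζ M) : Function.Injective (zpw M ζ) := by
  intro a b h
  have h1 : zpw M ζ (a - b) = 1 := by
    rw [sub_eq_add_neg, zpw_add hζ.pow_eq_one, zpw_neg hζ.pow_eq_one, h,
      mul_inv_cancel₀ (zpw_ne_zero hζ.pow_eq_one b)]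
  exact sub_eq_zero.1 ((zpw_eq_one_iff hζ _).1 h1)

variable (M ζ)

/-! ### The series `X_v` -/

/-- the `d`-th summand of the coefficient of `q^n` -/
def xterm (v : Vec M) (n d : ℕ) : K :=
  ((n / d : ℕ) : K) *
    ((if ((d : ℕ) : ZMod M) = v 0 then zpw M ζ ((n / d : ℕ) • v 1) else 0)
      + (if ((d : ℕ) : ZMod M) = - v 0 then zpw M ζ (-((n / d : ℕ) • v 1)) else 0)
      - 2 * (if ((d : ℕ) : ZMod M) = 0 then 1 else 0))

/-- the coefficient of `q^n`, `n ≥ 1` -/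
def xcoef (v : Vec M) (n : ℕ) : K := ∑ d ∈ n.divisors, xterm M ζ v n d

/-- the constant coefficient: `ζ^s / (1 - ζ^s)^2` at the points of `μ_M` -/
def x0 (v : Vec M) : K :=
  if v 0 = 0 then zpw M ζ (v 1) / (1 - zpw M ζ (v 1)) ^ 2 else 0

/-- **`X(q^r ζ^s, q^M)`**, `v = (r, s)` -/
def Xser (v : Vec M) : PowerSeries K :=
  PowerSeries.mk fun n => if n = 0 then x0 M ζ v else xcoef M ζ v n

theorem coeff_Xser_zero (v : Vec M) : PowerSeries.coeff 0 (Xser M ζ v) = x0 M ζ v := by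
  unfold Xser
  rw [PowerSeries.coeff_mk, if_pos rfl]

theorem coeff_Xser_of_ne_zero (v : Vec M) {n : ℕ} (hn : n ≠ 0) :
    PowerSeries.coeff n (Xser M ζ v) = xcoef M ζ v n := by
  unfold Xser
  rw [PowerSeries.coeff_mk, if_neg hn]

/-- the power series part `12 X_v + 1` of the Fricke function -/
def wpser (v : Vec M) : PowerSeries K := 12 * Xser M ζ v + 1

/-- **the Fricke function of the point `v`** : `(E₄E₆/Δ)(q^M) (12 X_v + 1)` -/
def fF (v : Vec M) : LaurentSeries K :=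
  qExpand K M (wNorm K) * HahnSeries.ofPowerSeries ℤ K (wpser M ζ v)

/-- `j(q^M)`, the `j`-invariant of `Tate(q^M)` -/
def jM (K : Type*) [Field K] (M : ℕ) [NeZero M] : LaurentSeries K := qExpand K M (jqModC K)

/-- the nonzero vectors -/
abbrev NZ (M : ℕ) : Type := {v : Vec M // v ≠ 0}

/-- the index set of the generators: `none` for `j(q^M)`, `some v` for `f_v` -/
abbrev Idx (M : ℕ) : Type := Option (NZ M)

/-- the generators of `FF_M`, indexed by `Idx M` -/
def yF : Idx M → LaurentSeries K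
  | none => jM K M
  | some v => fF M ζ v.1

/-- the generators of `FF_M`, as a set -/
def gens : Set (LaurentSeries K) := {jM K M} ∪ {x | ∃ v : Vec M, v ≠ 0 ∧ x = fF M ζ v}

theorem range_yF : Set.range (yF M ζ) = gens M ζ := by
  ext x
  constructor
  · rintro ⟨i, rfl⟩
    cases i with
    | none => exact Or.inl rfl
    | some v => exact Or.inr ⟨v.1, v.2, rfl⟩
  · rintro (hx | ⟨v, hv, rfl⟩)
    · rw [Set.mem_singleton_iff] at hx
      exact ⟨none, hx.symm⟩
    · exact ⟨some ⟨v, hv⟩, rfl⟩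

/-- **the field `FF_M = K(j(q^M), f_v : v ≠ 0)`** -/
abbrev FFull : IntermediateField K (LaurentSeries K) := GalPerm.FF K (yF M ζ)

/-- **the base `K(j(q^M))`** inside `FF_M` -/
abbrev K0 : IntermediateField K (FFull M ζ) := GalPerm.base K (yF M ζ) none

theorem FFull_eq_adjoin : FFull M ζ = IntermediateField.adjoin K (gens M ζ) := by
  unfold FFull GalPerm.FF
  rw [range_yF]

theorem jM_mem : jM K M ∈ FFull M ζ := (GalPerm.gen K (yF M ζ) none).2

theorem fF_mem {v : Vec M} (hv : v ≠ 0) : fF M ζ v ∈ FFull M ζ :=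
  (GalPerm.gen K (yF M ζ) (some ⟨v, hv⟩)).2

/-! ### Symmetry, the row family, the substitution `q ↦ ζ q` -/

variable {M ζ}

theorem xterm_neg (v : Vec M) (n d : ℕ) :
    xterm M ζ (-v) n d = xterm M ζ v n d := by
  unfold xterm
  have h0 : (-v) 0 = - v 0 := rfl
  have h1 : (-v) 1 = - v 1 := rfl
  rw [h0, h1, neg_neg, smul_neg, neg_neg]
  ring

theorem xcoef_neg (v : Vec M) (n : ℕ) : xcoef M ζ (-v) n = xcoef M ζ v n := by
  unfold xcoef
  exact Finset.sum_congr rfl fun d _ => xterm_neg v n d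

theorem x0_neg (hζ : ζ ^ M = 1) (v : Vec M) : x0 M ζ (-v) = x0 M ζ v := by
  unfold x0
  have h0 : (-v) 0 = - v 0 := rfl
  have h1 : (-v) 1 = - v 1 := rfl
  rw [h0, h1, zpw_neg hζ]
  by_cases hv : v 0 = 0
  · have hv' : - v 0 = 0 := by rw [hv, neg_zero]
    rw [if_pos hv', if_pos hv]
    have hz : zpw M ζ (v 1) ≠ 0 := zpw_ne_zero hζ _
    by_cases h1z : 1 - zpw M ζ (v 1) = 0
    · have : zpw M ζ (v 1) = 1 := (sub_eq_zero.1 h1z).symm
      rw [this]
      norm_num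
    · have h2 : 1 - (zpw M ζ (v 1))⁻¹ ≠ 0 := by
        intro h
        apply h1z
        have : (zpw M ζ (v 1))⁻¹ = 1 := (sub_eq_zero.1 h).symm
        rw [inv_eq_one] at this
        rw [this, sub_self]
      rw [div_eq_div_iff (pow_ne_zero 2 h2) (pow_ne_zero 2 h1z)]
      have h3 : (1 - (zpw M ζ (v 1))⁻¹) = (zpw M ζ (v 1) - 1) * (zpw M ζ (v 1))⁻¹ := by
        rw [sub_mul, mul_inv_cancel₀ hz, one_mul]
      rw [h3, mul_pow]
      have h4 : zpw M ζ (v 1) * ((zpw M ζ (v 1))⁻¹) ^ 2 = (zpw M ζ (v 1))⁻¹ := by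
        rw [pow_two, ← mul_assoc, mul_inv_cancel₀ hz, one_mul]
      calc (zpw M ζ (v 1))⁻¹ * (1 - zpw M ζ (v 1)) ^ 2
          = (zpw M ζ (v 1) * ((zpw M ζ (v 1))⁻¹) ^ 2) * (zpw M ζ (v 1) - 1) ^ 2 := by
            rw [h4]; ring
        _ = zpw M ζ (v 1) * ((zpw M ζ (v 1) - 1) ^ 2 * (zpw M ζ (v 1))⁻¹ ^ 2) := by ring
  · have hv' : ¬ - v 0 = 0 := fun h => hv (neg_eq_zero.1 h)
    rw [if_neg hv', if_neg hv]

theorem Xser_neg (hζ : ζ ^ M = 1) (v : Vec M) : Xser M ζ (-v) = Xser M ζ v := by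
  ext n
  by_cases hn : n = 0
  · subst hn
    rw [coeff_Xser_zero, coeff_Xser_zero, x0_neg hζ]
  · rw [coeff_Xser_of_ne_zero _ _ _ hn, coeff_Xser_of_ne_zero _ _ _ hn, xcoef_neg]

theorem fF_neg (hζ : ζ ^ M = 1) (v : Vec M) : fF M ζ (-v) = fF M ζ v := by
  unfold fF wpser
  rw [Xser_neg hζ]

/-- for `v = (a, 0)`, `a ≠ 0`, `X_v` is helper8's `tateX M a` -/
theorem Xser_row {a : ZMod M} (ha : a ≠ 0) :
    Xser M ζ ![a, 0] = (tateX M a).map (Int.castRingHom K) := by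
  ext n
  rw [PowerSeries.coeff_map]
  by_cases hn : n = 0
  · subst hn
    rw [coeff_Xser_zero]
    unfold x0 tateX
    have h0 : (![a, 0] : Vec M) 0 = a := rfl
    rw [h0, if_neg ha, PowerSeries.coeff_mk, Nat.divisors_zero, Finset.sum_empty, map_zero]
  · rw [coeff_Xser_of_ne_zero _ _ _ hn]
    unfold xcoef tateX
    rw [PowerSeries.coeff_mk, map_sum]
    refine Finset.sum_congr rfl fun d _ => ?_
    unfold xterm
    have h0 : (![a, 0] : Vec M) 0 = a := rfl
    have h1 : (![a, 0] : Vec M) 1 = 0 := rfl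
    rw [h0, h1, smul_zero, neg_zero, zpw_zero, map_mul, map_sub, map_add, map_mul, map_natCast]
    simp only [apply_ite (Int.castRingHom K), map_one, map_zero, map_ofNat]

/-- **`f_(a,0)` is helper8's Fricke function `h_a`** -/
theorem fF_row {a : ZMod M} (ha : a ≠ 0) : fF M ζ ![a, 0] = frickeH K M a := by
  unfold fF frickeH wpser
  rw [Xser_row ha]
  congr 2
  simp only [map_add, map_mul, map_one, map_ofNat]

/-! ### The substitution `q ↦ ζ q` -/

/-- the shear `(r, s) ↦ (r, s + r)`, i.e. `v ↦ v ᵥ* !![1, 1; 0, 1]` -/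
def shear (v : Vec M) : Vec M := ![v 0, v 1 + v 0]

theorem shear_zero (v : Vec M) : shear v 0 = v 0 := rfl

theorem shear_one (v : Vec M) : shear v 1 = v 1 + v 0 := rfl

theorem shear_ne_zero {v : Vec M} (hv : v ≠ 0) : shear v ≠ 0 := by
  intro h
  apply hv
  have h0 : v 0 = 0 := by
    have := congrFun h 0
    rwa [shear_zero] at this
  have h1 : v 1 = 0 := by
    have := congrFun h 1
    rw [shear_one, h0, add_zero] at this
    exact this
  funext i
  fin_cases i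
  · exact h0
  · exact h1

theorem div_nsmul_natCast {n d : ℕ} (hd : d ∣ n) :
    ((n / d : ℕ) • ((d : ℕ) : ZMod M)) = ((n : ℕ) : ZMod M) := by
  rw [nsmul_eq_mul, ← Nat.cast_mul, Nat.div_mul_cancel hd]

theorem xterm_shear (hζ : ζ ^ M = 1) (v : Vec M) {n d : ℕ} (hd : d ∣ n) :
    ζ ^ n * xterm M ζ v n d = xterm M ζ (shear v) n d := by
  unfold xterm
  rw [shear_zero, shear_one]
  have hn : ζ ^ n = zpw M ζ ((n : ℕ) : ZMod M) := (zpw_natCast hζ n).symm
  have e1 : ζ ^ n * (if ((d : ℕ) : ZMod M) = v 0 then zpw M ζ ((n / d : ℕ) • v 1) else 0) =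
      (if ((d : ℕ) : ZMod M) = v 0 then zpw M ζ ((n / d : ℕ) • (v 1 + v 0)) else 0) := by
    by_cases h : ((d : ℕ) : ZMod M) = v 0
    · rw [if_pos h, if_pos h, smul_add, zpw_add hζ, ← h, div_nsmul_natCast hd, hn, mul_comm]
    · rw [if_neg h, if_neg h, mul_zero]
  have e2 : ζ ^ n * (if ((d : ℕ) : ZMod M) = - v 0 then zpw M ζ (-((n / d : ℕ) • v 1)) else 0) =
      (if ((d : ℕ) : ZMod M) = - v 0 then zpw M ζ (-((n / d : ℕ) • (v 1 + v 0))) else 0) := by
    by_cases h : ((d : ℕ) : ZMod M) = - v 0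
    · rw [if_pos h, if_pos h, smul_add, neg_add, zpw_add hζ, ← smul_neg _ (v 0), ← h,
        div_nsmul_natCast hd, hn, mul_comm]
    · rw [if_neg h, if_neg h, mul_zero]
  have e3 : ζ ^ n * (if ((d : ℕ) : ZMod M) = 0 then (1 : K) else 0) =
      (if ((d : ℕ) : ZMod M) = 0 then (1 : K) else 0) := by
    by_cases h : ((d : ℕ) : ZMod M) = 0
    · rw [if_pos h, mul_one, hn, ← div_nsmul_natCast hd, h, smul_zero, zpw_zero]
    · rw [if_neg h, mul_zero]
  have e4 : ζ ^ n * (((n / d : ℕ) : K) *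
      ((if ((d : ℕ) : ZMod M) = v 0 then zpw M ζ ((n / d : ℕ) • v 1) else 0)
        + (if ((d : ℕ) : ZMod M) = - v 0 then zpw M ζ (-((n / d : ℕ) • v 1)) else 0)
        - 2 * (if ((d : ℕ) : ZMod M) = 0 then 1 else 0))) =
      ((n / d : ℕ) : K) *
      (ζ ^ n * (if ((d : ℕ) : ZMod M) = v 0 then zpw M ζ ((n / d : ℕ) • v 1) else 0)
        + ζ ^ n * (if ((d : ℕ) : ZMod M) = - v 0 then zpw M ζ (-((n / d : ℕ) • v 1)) else 0)
        - 2 * (ζ ^ n * (if ((d : ℕ) : ZMod M) = 0 then 1 else 0))) := by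
    ring
  rw [e4, e1, e2, e3]

theorem xcoef_shear (hζ : ζ ^ M = 1) (v : Vec M) (n : ℕ) :
    ζ ^ n * xcoef M ζ v n = xcoef M ζ (shear v) n := by
  unfold xcoef
  rw [Finset.mul_sum]
  exact Finset.sum_congr rfl fun d hd => xterm_shear hζ v (Nat.dvd_of_mem_divisors hd)

theorem x0_shear (v : Vec M) : x0 M ζ (shear v) = x0 M ζ v := by
  unfold x0
  rw [shear_zero, shear_one]
  by_cases h : v 0 = 0
  · rw [if_pos h, if_pos h, h, add_zero]
  · rw [if_neg h, if_neg h]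

theorem rescale_Xser (hζ : ζ ^ M = 1) (v : Vec M) :
    PowerSeries.rescale ζ (Xser M ζ v) = Xser M ζ (shear v) := by
  ext n
  rw [PowerSeries.coeff_rescale]
  by_cases hn : n = 0
  · subst hn
    rw [coeff_Xser_zero, coeff_Xser_zero, x0_shear, pow_zero, one_mul]
  · rw [coeff_Xser_of_ne_zero _ _ _ hn, coeff_Xser_of_ne_zero _ _ _ hn, xcoef_shear hζ]

theorem units_pow_eq_one {u : Kˣ} (hu : u ^ M = 1) : (u : K) ^ M = 1 := by
  rw [← Units.val_pow_eq_pow_val, hu, Units.val_one]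

/-- **the substitution `q ↦ ζ q` sends `f_(r,s)` to `f_(r, s + r)`** -/
theorem rescaleU_fF {u : Kˣ} (hu : u ^ M = 1) (v : Vec M) :
    rescaleU u (fF M (u : K) v) = fF M (u : K) (shear v) := by
  unfold fF wpser
  rw [map_mul, rescaleU_qExpand_of_pow_eq_one M hu, rescaleU_ofPowerSeries, map_add, map_mul,
    map_one, map_ofNat, rescale_Xser (units_pow_eq_one hu)]

/-- the substitution `q ↦ ζ q` fixes `j(q^M)` -/
theorem rescaleU_jM {u : Kˣ} (hu : u ^ M = 1) : rescaleU u (jM K M) = jM K M := by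
  unfold jM
  exact rescaleU_qExpand_of_pow_eq_one M hu _

/-- `FF_M` is stable under `q ↦ ζ q` -/
theorem rescaleU_mem_FFull {u : Kˣ} (hu : u ^ M = 1) {x : LaurentSeries K}
    (hx : x ∈ FFull M (u : K)) : rescaleU u x ∈ FFull M (u : K) := by
  have h1 : FFull M (u : K) ≤ (FFull M (u : K)).comap (rescaleA u : LaurentSeries K →ₐ[K] _) := by
    rw [FFull_eq_adjoin, IntermediateField.adjoin_le_iff]
    rintro y (hy | ⟨v, hv, rfl⟩)
    · rw [Set.mem_singleton_iff] at hy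
      subst hy
      show rescaleU u (jM K M) ∈ IntermediateField.adjoin K (gens M (u : K))
      rw [rescaleU_jM hu, ← FFull_eq_adjoin]
      exact jM_mem M _
    · show rescaleU u (fF M (u : K) v) ∈ IntermediateField.adjoin K (gens M (u : K))
      rw [rescaleU_fF hu, ← FFull_eq_adjoin]
      exact fF_mem M _ (shear_ne_zero hv)
  exact h1 hx

end Fermat.Agent.S48.B.Igusa.Full.Defs

end
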