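import Mathlib
import Fermat.Agent.S24.QRep
import Fermat.Agent.S24.Degree
import Fermat.Agent.S24.Growth
import Fermat.Agent.S24.LevelOnePoly
import Fermat.Agent.S48.B.B1.PermPrinciple
import Fermat.Agent.S48.B.Igusa.GroupGen
import Fermat.Agent.S48.B.Igusa.Full.GalPerm
import Fermat.Agent.S48.B.Igusa.Full.Defs

/-!
# PROJECT D (S48), part B, block B2, brick (A): the analytic / formal bridge for a modular family of
level `M` (helper12)

A *modular family of level `M`* (`ModFamily`) is a family of holomorphic functions `Φ i` on `ℍ`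
(variable `τ' = M τ`), permuted by `SL(2, ℤ)` through a permutation representation `ρ` of
`SL(2, ZMod M)` on the index set (`Φ i (γ τ') = Φ (ρ γ̄⁻¹ i) τ'`), of moderate growth at `i∞`, with
`q`-expansions `y i ∈ K((q))` in `q = e(τ'/M)` (`Rep (dil M (Φ i)) (coeffMap ι (y i))`, main's
level-free `S24/QRep`), containing `j` (index `i₀`, `y i₀ = j(q^M)`).

For such a family:
* `eval_eq_zero_iff` : formal relations over `K` = analytic relations;
* `hasPerm` : `GalPerm.HasPerm K y ρ` (helper7's permutation principle);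
* `hasInv` : `GalPerm.HasInv K y ρ i₀` (main's level-one theorem + descent `ℂ → K` by pole order).
Hence (`GalPerm`) `K(y)` is Galois over `K(j(q^M))` with group the image of `SL(2, ZMod M)`.
-/

set_option autoImplicit false
set_option linter.unusedSectionVars false

noncomputable section

namespace Fermat.Agent.S48.B.Igusa.Full.Bridge

open UpperHalfPlane ModularForm Filter Topology Function MvPolynomial
open ModularCurve
open Fermat.Agent.S24.QRep Fermat.Agent.S24.Growth Fermat.Agent.LevelOne.JBasic
open Fermat.Agent.S48.B.B1.PermPrinciple Fermat.Agent.S48.B.Igusa.Full.Defs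
open scoped MatrixGroups ModularForm Manifold

local notation "𝕢" => Periodic.qParam

variable {K : Type*} [Field K] (ι : K →+* ℂ) (M : ℕ) [NeZero M] {I : Type*}

/-- reduction mod `M` -/
def red (γ : SL(2, ℤ)) : SL(2, ZMod M) :=
  Matrix.SpecialLinearGroup.map (Int.castRingHom (ZMod M)) γ

theorem red_surjective : Function.Surjective (red M) :=
  Fermat.Agent.S48.B.Igusa.GroupGen.map_intCast_surjective M

/-- **modular family of level `M`** -/
structure ModFamily (ρ : SL(2, ZMod M) →* Equiv.Perm I) (i₀ : I) (Φ : I → ℍ → ℂ)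
    (y : I → LaurentSeries K) : Prop where
  hol : ∀ i, MDiff (Φ i)
  comp : ∀ (γ : SL(2, ℤ)) (i : I) (τ : ℍ), Φ i (γ • τ) = Φ (ρ (red M γ)⁻¹ i) τ
  moderate : ∀ i, IsModerate (Φ i)
  rep : ∀ i, Rep (dil M (Φ i)) (coeffMap ι (y i))
  base_fun : Φ i₀ = jFun
  base_ser : y i₀ = jM K M
  base_fix : ∀ g, ρ g i₀ = i₀

/-! ### `τ ↦ M τ` is onto -/

theorem exists_dil_eq (τ' : ℍ) : ∃ τ : ℍ, heckeDiagMatrix M • τ = τ' := by
  have hM : (0 : ℝ) < M := by exact_mod_cast Nat.pos_of_ne_zero (NeZero.ne M)
  have him : 0 < ((τ' : ℂ) / (M : ℂ)).im := by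
    rw [Complex.div_natCast_im]
    exact div_pos τ'.im_pos hM
  refine ⟨⟨(τ' : ℂ) / (M : ℂ), him⟩, ?_⟩
  ext
  rw [coe_heckeDiagMatrix_smul (NeZero.ne M)]
  show (M : ℂ) * ((τ' : ℂ) / (M : ℂ)) = τ'
  have : (M : ℂ) ≠ 0 := by exact_mod_cast NeZero.ne M
  field_simp

/-! ### Negation and uniqueness for `Rep` -/

theorem rep_neg {F : ℍ → ℂ} {g : LaurentSeries ℂ} (h : Rep F g) : Rep (fun τ => - F τ) (-g) := by
  have h1 := (Rep.const (-1)).mul h
  have h2 : ((fun _ : ℍ => (-1 : ℂ)) * F) = fun τ => - F τ := by
    funext τ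
    simp only [Pi.mul_apply, neg_mul, one_mul]
  have h3 : HahnSeries.C (-1 : ℂ) * g = -g := by
    rw [map_neg, map_one, neg_mul, one_mul]
  rwa [h2, h3] at h1

theorem rep_unique {F : ℍ → ℂ} {g g' : LaurentSeries ℂ} (h : Rep F g) (h' : Rep F g') : g = g' := by
  have h1 := h.add (rep_neg h')
  have h2 : (F + fun τ => - F τ) = 0 := by
    funext τ
    simp only [Pi.add_apply, add_neg_cancel, Pi.zero_apply]
  have h3 := h1.eq_zero_iff.2 h2
  exact sub_eq_zero.1 (by rw [sub_eq_add_neg]; exact h3)

theorem rep_fun_eq {F F' : ℍ → ℂ} {g : LaurentSeries ℂ} (h : Rep F g) (h' : Rep F' g) :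
    F = F' := by
  have h1 := h.add (rep_neg h')
  rw [add_neg_cancel] at h1
  have h3 := h1.eq_zero_iff.1 rfl
  funext τ
  have := congrFun h3 τ
  simp only [Pi.add_apply, Pi.zero_apply] at this
  exact add_neg_eq_zero.1 this

/-! ### Formal relations = analytic relations -/

section Family

variable {ι M}
variable {ρ : SL(2, ZMod M) →* Equiv.Perm I} {i₀ : I} {Φ : I → ℍ → ℂ} {y : I → LaurentSeries K}

/-- the analytic evaluation of a polynomial in the family is represented by its formal
evaluation -/
theorem rep_eval (hF : ModFamily ι M ρ i₀ Φ y) (p : MvPolynomial I ℂ) :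
    Rep (fun τ => MvPolynomial.eval (fun i => Φ i (heckeDiagMatrix M • τ)) p)
      (MvPolynomial.aeval (fun i => coeffMap ι (y i)) p) := by
  induction p using MvPolynomial.induction_on with
  | C a =>
    simp only [MvPolynomial.eval_C, MvPolynomial.aeval_C]
    rw [algebraMap_laurentSeries_eq_single]
    exact Rep.const a
  | add p q hp hq =>
    simp only [map_add]
    exact hp.add hq
  | mul_X p i hp =>
    simp only [map_mul, MvPolynomial.eval_X, MvPolynomial.aeval_X]
    exact hp.mul (hF.rep i)

theorem coeffMap_injective (x : LaurentSeries K) (h : coeffMap ι x = 0) : x = 0 := by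
  ext k
  have := congrArg (fun z : LaurentSeries ℂ => z.coeff k) h
  simp only [coeffMap_coeff, HahnSeries.coeff_zero] at this
  rw [HahnSeries.coeff_zero]
  exact (map_eq_zero_iff ι ι.injective).1 this

/-- **formal relations over `K` = analytic relations** -/
theorem eval_eq_zero_iff (hF : ModFamily ι M ρ i₀ Φ y) (p : MvPolynomial I K) :
    MvPolynomial.aeval y p = 0 ↔
      ∀ τ : ℍ, MvPolynomial.eval (fun i => Φ i τ) (MvPolynomial.map ι p) = 0 := by
  have h1 : MvPolynomial.aeval y p = 0 ↔
      MvPolynomial.aeval (fun i => coeffMap ι (y i)) (MvPolynomial.map ι p) = 0 := by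
    rw [← Fermat.Agent.S24.Degree.coeffMap_aeval]
    constructor
    · intro h
      rw [h, map_zero]
    · exact coeffMap_injective _
  rw [h1, (rep_eval hF (MvPolynomial.map ι p)).eq_zero_iff]
  constructor
  · intro h τ'
    obtain ⟨τ, rfl⟩ := exists_dil_eq M τ'
    exact congrFun h τ
  · intro h
    funext τ
    exact h _

/-- the relations are preserved by the permutations -/
theorem sameRelations (hF : ModFamily ι M ρ i₀ Φ y) (g : SL(2, ZMod M)) :
    SameRelations K y (y ∘ ρ g) := by
  obtain ⟨γ, hγ⟩ := red_surjective M g⁻¹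
  have hcomp : ∀ i τ, Φ (ρ g i) τ = Φ i (γ • τ) := by
    intro i τ
    rw [hF.comp γ i τ, hγ, inv_inv]
  -- the family `y ∘ ρ g` is again a modular family (for the same functions composed with `γ`)
  intro p
  rw [eval_eq_zero_iff hF p]
  have h2 : MvPolynomial.aeval (y ∘ ρ g) p = MvPolynomial.aeval y (MvPolynomial.rename (ρ g) p) := by
    rw [MvPolynomial.aeval_rename]
  rw [h2, eval_eq_zero_iff hF]
  have h3 : ∀ τ, MvPolynomial.eval (fun i => Φ i τ)
      (MvPolynomial.map ι (MvPolynomial.rename (ρ g) p)) =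
      MvPolynomial.eval (fun i => Φ i (γ • τ)) (MvPolynomial.map ι p) := by
    intro τ
    rw [MvPolynomial.map_rename, MvPolynomial.eval_rename]
    have h4 : ((fun i => Φ i τ) ∘ ρ g) = fun i => Φ i (γ • τ) := by
      funext i
      exact hcomp i τ
    rw [h4]
  constructor
  · intro h τ
    rw [h3]
    exact h _
  · intro h τ
    have := h (γ⁻¹ • τ)
    rw [h3, smul_inv_smul] at this
    exact this

/-- **every `g` is realised by an automorphism permuting the generators** -/
theorem hasPerm (hF : ModFamily ι M ρ i₀ Φ y) : GalPerm.HasPerm K y ρ := by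
  intro g
  refine ⟨permAut (ρ g) (sameRelations hF g), fun i => ?_⟩
  apply Subtype.ext
  exact coe_permAut_gen (ρ g) (sameRelations hF g) i

end Family

/-! ### Descent `ℂ → K` by pole order -/

section Descent

variable {ι M}

theorem coeffMap_jM : coeffMap ι (jM K M) = jM ℂ M := by
  unfold jM
  rw [coeffMap_qExpand, coeffMap_jqModC]

theorem coeff_jM_pow_self (L : Type*) [Field L] (n : ℕ) :
    ((jM L M) ^ n).coeff (-((M : ℤ) * n)) = 1 := by
  unfold jM
  rw [← map_pow, ← mul_neg, qExpand_coeff_mul, coeff_jqModC_pow_self]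

theorem coeff_jM_pow_of_lt (L : Type*) [Field L] {n k : ℕ} (hk : k < n) :
    ((jM L M) ^ k).coeff (-((M : ℤ) * n)) = 0 := by
  unfold jM
  rw [← map_pow, ← mul_neg, qExpand_coeff_mul]
  exact coeff_jqModC_pow_of_lt L (by omega)

/-- the coefficient of `q^{-Mn}` in `Q(j(q^M))` is the `n`-th coefficient of `Q`, `n ≥ deg Q` -/
theorem coeff_aeval_jM (L : Type*) [Field L] (Q : Polynomial L) (n : ℕ) (hn : Q.natDegree ≤ n) :
    (Polynomial.aeval (jM L M) Q).coeff (-((M : ℤ) * n)) = Q.coeff n := by
  rw [Polynomial.aeval_eq_sum_range' (Nat.lt_succ_of_le hn), HahnSeries.coeff_sum]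
  rw [Finset.sum_eq_single n]
  · rw [Algebra.smul_def, algebraMap_laurentSeries_eq_single, HahnSeries.coeff_single_mul, sub_zero,
      coeff_jM_pow_self, mul_one]
  · intro i hi hin
    have hi' : i < n := lt_of_le_of_ne (Nat.lt_succ_iff.mp (Finset.mem_range.mp hi)) hin
    rw [Algebra.smul_def, algebraMap_laurentSeries_eq_single, HahnSeries.coeff_single_mul, sub_zero,
      coeff_jM_pow_of_lt L hi', mul_zero]
  · intro h
    exact absurd (Finset.mem_range.mpr (Nat.lt_succ_self n)) h

theorem coeffMap_algebraMap (a : K) :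
    coeffMap ι (algebraMap K (LaurentSeries K) a) = algebraMap ℂ (LaurentSeries ℂ) (ι a) :=
  Fermat.Agent.S24.Degree.coeffMap_algebraMap' ι a

/-- **descent** : a series over `K` whose image over `ℂ` is a polynomial in `j(q^M)` is a polynomial
in `j(q^M)` over `K` -/
theorem mem_adjoin_of_coeffMap_eq : ∀ (n : ℕ) (z : LaurentSeries K) (Q : Polynomial ℂ),
    Q.natDegree ≤ n → coeffMap ι z = Polynomial.aeval (jM ℂ M) Q →
      z ∈ Algebra.adjoin K {jM K M} := by
  intro n
  induction n with
  | zero =>
    intro z Q hQ hz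
    have hQ' : Q = Polynomial.C (Q.coeff 0) := Polynomial.eq_C_of_natDegree_le_zero hQ
    rw [hQ', Polynomial.aeval_C, algebraMap_laurentSeries_eq_single] at hz
    have hz' : z = algebraMap K (LaurentSeries K) (z.coeff 0) := by
      rw [algebraMap_laurentSeries_eq_single]
      ext k
      by_cases hk : k = 0
      · subst hk
        rw [HahnSeries.coeff_single_same]
      · rw [HahnSeries.coeff_single_of_ne hk]
        have h1 := congrArg (fun x : LaurentSeries ℂ => x.coeff k) hz
        simp only [coeffMap_coeff, HahnSeries.coeff_single_of_ne hk] at h1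
        exact (map_eq_zero_iff ι ι.injective).1 h1
    rw [hz']
    exact Subalgebra.algebraMap_mem _ _
  | succ n ih =>
    intro z Q hQ hz
    set c : K := z.coeff (-((M : ℤ) * (n + 1 : ℕ))) with hc
    have hcQ : ι c = Q.coeff (n + 1) := by
      rw [← coeff_aeval_jM (M := M) ℂ Q (n + 1) hQ, ← hz, coeffMap_coeff]
    set z' : LaurentSeries K := z - algebraMap K (LaurentSeries K) c * (jM K M) ^ (n + 1) with hz'
    set Q' : Polynomial ℂ := Q.erase (n + 1) with hQ'
    have hQ'deg : Q'.natDegree ≤ n := by
      rw [Polynomial.natDegree_le_iff_coeff_eq_zero]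
      intro N hN
      rw [hQ', Polynomial.coeff_erase]
      split_ifs with h
      · rfl
      · exact Polynomial.coeff_eq_zero_of_natDegree_lt (by omega)
    have hQsplit : Q = Polynomial.monomial (n + 1) (Q.coeff (n + 1)) + Q' :=
      (Polynomial.monomial_add_erase Q (n + 1)).symm
    have hz'eq : coeffMap ι z' = Polynomial.aeval (jM ℂ M) Q' := by
      have hsplit2 : Polynomial.aeval (jM ℂ M) Q =
          algebraMap ℂ (LaurentSeries ℂ) (Q.coeff (n + 1)) * (jM ℂ M) ^ (n + 1) +
            Polynomial.aeval (jM ℂ M) Q' := by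
        have := congrArg (Polynomial.aeval (jM ℂ M)) hQsplit
        rw [map_add, Polynomial.aeval_monomial] at this
        exact this
      rw [hz', map_sub, map_mul, map_pow, coeffMap_algebraMap, coeffMap_jM, hz, hcQ, hsplit2]
      ring
    have h1 := ih z' Q' hQ'deg hz'eq
    have h2 : z = z' + algebraMap K (LaurentSeries K) c * (jM K M) ^ (n + 1) := by
      rw [hz']; ring
    rw [h2]
    exact add_mem h1 (mul_mem (Subalgebra.algebraMap_mem _ _)
      (pow_mem (Algebra.subset_adjoin (Set.mem_singleton _)) _))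

end Descent

/-! ### Invariants -/

section Invariants

variable {ι M}
variable {ρ : SL(2, ZMod M) →* Equiv.Perm I} {i₀ : I} {Φ : I → ℍ → ℂ} {y : I → LaurentSeries K}

theorem mdiff_eval (hF : ModFamily ι M ρ i₀ Φ y) (p : MvPolynomial I ℂ) :
    MDiff (fun τ : ℍ => MvPolynomial.eval (fun i => Φ i τ) p) := by
  induction p using MvPolynomial.induction_on with
  | C a =>
    simp only [MvPolynomial.eval_C]
    exact mdifferentiable_const
  | add p q hp hq =>
    simp only [map_add]
    exact hp.add hq
  | mul_X p i hp =>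
    simp only [map_mul, MvPolynomial.eval_X]
    exact hp.mul (hF.hol i)

theorem isModerate_eval (hF : ModFamily ι M ρ i₀ Φ y) (p : MvPolynomial I ℂ) :
    IsModerate (fun τ : ℍ => MvPolynomial.eval (fun i => Φ i τ) p) := by
  induction p using MvPolynomial.induction_on with
  | C a =>
    simp only [MvPolynomial.eval_C]
    exact isModerate_const a
  | add p q hp hq =>
    simp only [map_add]
    exact hp.add hq
  | mul_X p i hp =>
    simp only [map_mul, MvPolynomial.eval_X]
    exact hp.mul (hF.moderate i)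

/-- the one-variable version of `rep_eval` for polynomials in `j` -/
theorem rep_eval_j (hF : ModFamily ι M ρ i₀ Φ y) (Q : Polynomial ℂ) :
    Rep (fun τ => Polynomial.eval (jFun (heckeDiagMatrix M • τ)) Q)
      (Polynomial.aeval (jM ℂ M) Q) := by
  have hj : Rep (fun τ => jFun (heckeDiagMatrix M • τ)) (jM ℂ M) := by
    have := hF.rep i₀
    rw [hF.base_fun, hF.base_ser, coeffMap_jM] at this
    exact this
  have hpow : ∀ n : ℕ, Rep (fun τ => jFun (heckeDiagMatrix M • τ) ^ n) ((jM ℂ M) ^ n) := by
    intro n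
    induction n with
    | zero =>
      have h1 := Rep.const (1 : ℂ)
      rw [map_one] at h1
      have h2 : (fun τ : ℍ => jFun (heckeDiagMatrix M • τ) ^ 0) = fun _ => (1 : ℂ) := by
        funext τ
        exact pow_zero _
      rw [h2, pow_zero]
      exact h1
    | succ n ih =>
      have h1 := ih.mul hj
      have h2 : (fun τ : ℍ => jFun (heckeDiagMatrix M • τ) ^ (n + 1)) =
          (fun τ => jFun (heckeDiagMatrix M • τ) ^ n) * fun τ => jFun (heckeDiagMatrix M • τ) := by
        funext τ
        exact pow_succ _ _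
      rw [h2, pow_succ]
      exact h1
  induction Q using Polynomial.induction_on' with
  | add p q hp hq =>
    have h1 := hp.add hq
    have h2 : (fun τ : ℍ => Polynomial.eval (jFun (heckeDiagMatrix M • τ)) (p + q)) =
        (fun τ => Polynomial.eval (jFun (heckeDiagMatrix M • τ)) p) +
          fun τ => Polynomial.eval (jFun (heckeDiagMatrix M • τ)) q := by
      funext τ
      exact Polynomial.eval_add
    rw [h2, map_add]
    exact h1
  | monomial n a =>
    have h1 := (Rep.const a).mul (hpow n)
    have h2 : (fun τ : ℍ => Polynomial.eval (jFun (heckeDiagMatrix M • τ))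
        (Polynomial.monomial n a)) =
        (fun _ => a) * fun τ => jFun (heckeDiagMatrix M • τ) ^ n := by
      funext τ
      exact Polynomial.eval_monomial
    rw [h2, Polynomial.aeval_monomial, algebraMap_laurentSeries_eq_single]
    exact h1

/-- **a polynomial expression invariant under all the permutations lies in `K(j(q^M))`** -/
theorem hasInv (hF : ModFamily ι M ρ i₀ Φ y) : GalPerm.HasInv K y ρ i₀ := by
  intro P hP
  -- the analytic function
  set A : ℍ → ℂ := fun τ => MvPolynomial.eval (fun i => Φ i τ) (MvPolynomial.map ι P) with hA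
  have hAhol : MDiff A := mdiff_eval hF _
  obtain ⟨m, hm⟩ := isModerate_eval hF (MvPolynomial.map ι P)
  -- invariance
  have hAinv : ∀ (γ : SL(2, ℤ)) (τ : ℍ), A (γ • τ) = A τ := by
    intro γ τ
    set g : SL(2, ZMod M) := (red M γ)⁻¹ with hg
    have h1 : MvPolynomial.aeval y (MvPolynomial.rename (ρ g) P - P) = 0 := by
      rw [map_sub, MvPolynomial.aeval_rename, sub_eq_zero]
      exact hP g
    have h2 := (eval_eq_zero_iff hF _).1 h1 τ
    rw [map_sub, map_sub, sub_eq_zero, MvPolynomial.map_rename, MvPolynomial.eval_rename] at h2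
    rw [hA]
    simp only
    rw [← h2]
    have h8 : (fun i => Φ i (γ • τ)) = ((fun i => Φ i τ) ∘ ρ g) := by
      funext i
      exact hF.comp γ i τ
    rw [h8]
  obtain ⟨Q, -, hQ⟩ :=
    Fermat.Agent.S24.LevelOnePoly.exists_polynomial_of_invariant hAhol hAinv m hm
  -- transfer to Laurent series
  have h3 : Rep (fun τ => A (heckeDiagMatrix M • τ)) (coeffMap ι (MvPolynomial.aeval y P)) := by
    have := rep_eval hF (MvPolynomial.map ι P)
    rwa [← Fermat.Agent.S24.Degree.coeffMap_aeval] at this
  have h4 : Rep (fun τ => A (heckeDiagMatrix M • τ)) (Polynomial.aeval (jM ℂ M) Q) := by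
    have := rep_eval_j hF Q
    have h5 : (fun τ => Polynomial.eval (jFun (heckeDiagMatrix M • τ)) Q) =
        fun τ => A (heckeDiagMatrix M • τ) := by
      funext τ
      exact (hQ _).symm
    rwa [h5] at this
  have h6 := rep_unique h3 h4
  have h7 := mem_adjoin_of_coeffMap_eq Q.natDegree _ Q le_rfl h6
  rw [hF.base_ser]
  exact IntermediateField.algebra_adjoin_le_adjoin K _ h7

end Invariants

end Fermat.Agent.S48.B.Igusa.Full.Bridge

end
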