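import Mathlib
import Fermat.Agent.S48.B.B1.TateX
import Fermat.Agent.S48.B.Igusa.Full.Defs

/-!
# PROJECT D (S48), part B, block B2, brick (A4): the Fricke functions `f_v` are pairwise distinct up
to sign (helper12)

`K` a field, `ζ` a primitive `M`-th root of unity.  For `v, w ≠ 0`:

* `Xser_eq_iff : Xser M ζ v = Xser M ζ w ↔ v = w ∨ v = -w`;
* `fF_eq_iff` (`(12 : K) ≠ 0`) : the same for the Fricke functions.

Formal: for `v = (r, s)` with `r ≠ 0` the series `X_v` has no term below `ℓ = min(r, M - r)`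
(`lead` of helper7's `B1/TateX.lean`) and the coefficient of `q^ℓ` is `[ℓ = r] ζ^s + [ℓ = -r] ζ^{-s}`;
for `r = 0` the constant coefficient is `ζ^s / (1 - ζ^s)^2 ≠ 0`.
-/

set_option autoImplicit false
set_option linter.unusedSectionVars false

noncomputable section

namespace Fermat.Agent.S48.B.Igusa.Full.Distinct

open ModularCurve Fermat.Agent.S48.B.Defs.Model Fermat.Agent.S48.B.B1.TateX
open Fermat.Agent.S48.B.Igusa.Full.Defs

variable {K : Type*} [Field K] {M : ℕ} [NeZero M] {ζ : K}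

/-! ### Vanishing below the lead, the leading coefficient -/

theorem xterm_eq_zero_of_lt {v : Vec M} (hr : v 0 ≠ 0) (n : ℕ) {d : ℕ} (hd0 : 0 < d)
    (hd : d < lead M (v 0)) : xterm M ζ v n d = 0 := by
  have h1 := val_pos_of_ne_zero hr
  have h2 := ZMod.val_lt (v 0)
  have hdM : d < M := lt_trans hd (lead_lt hr)
  have hlead : lead M (v 0) = min (v 0).val (M - (v 0).val) := rfl
  have e1 : ¬ ((d : ℕ) : ZMod M) = v 0 := by
    rw [natCast_eq_iff_of_lt hdM]
    omega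
  have e2 : ¬ ((d : ℕ) : ZMod M) = - v 0 := by
    rw [natCast_eq_iff_of_lt hdM, neg_val_of_ne_zero hr]
    omega
  have e3 : ¬ ((d : ℕ) : ZMod M) = 0 := natCast_ne_zero_of_lt hd0 hdM
  unfold xterm
  rw [if_neg e1, if_neg e2, if_neg e3]
  ring

theorem xcoef_eq_zero_of_lt {v : Vec M} (hr : v 0 ≠ 0) {n : ℕ} (hn : n < lead M (v 0)) :
    xcoef M ζ v n = 0 := by
  unfold xcoef
  refine Finset.sum_eq_zero fun d hd => ?_
  have hd' := Nat.mem_divisors.mp hd
  have hd0 : 0 < d := Nat.pos_of_dvd_of_pos hd'.1 (Nat.pos_of_ne_zero hd'.2)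
  have hdn : d ≤ n := Nat.le_of_dvd (Nat.pos_of_ne_zero hd'.2) hd'.1
  exact xterm_eq_zero_of_lt hr n hd0 (lt_of_le_of_lt hdn hn)

/-- the leading coefficient `[ℓ = r] ζ^s + [ℓ = -r] ζ^{-s}` -/
def leadCoef (M : ℕ) [NeZero M] (ζ : K) (v : Vec M) : K :=
  (if ((lead M (v 0) : ℕ) : ZMod M) = v 0 then zpw M ζ (v 1) else 0)
    + (if ((lead M (v 0) : ℕ) : ZMod M) = - v 0 then zpw M ζ (- v 1) else 0)

theorem xcoef_lead {v : Vec M} (hr : v 0 ≠ 0) :
    xcoef M ζ v (lead M (v 0)) = leadCoef M ζ v := by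
  have hpos := lead_pos hr
  unfold xcoef
  rw [Finset.sum_eq_single_of_mem (lead M (v 0)) (Nat.mem_divisors_self _ hpos.ne')]
  · have e3 : ¬ ((lead M (v 0) : ℕ) : ZMod M) = 0 := natCast_ne_zero_of_lt hpos (lead_lt hr)
    unfold xterm leadCoef
    rw [Nat.div_self hpos, Nat.cast_one, one_mul, one_smul, if_neg e3, mul_zero, sub_zero]
  · intro d hd hne
    have hd' := Nat.mem_divisors.mp hd
    have hd0 : 0 < d := Nat.pos_of_dvd_of_pos hd'.1 hpos
    have hdn : d ≤ lead M (v 0) := Nat.le_of_dvd hpos hd'.1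
    exact xterm_eq_zero_of_lt hr _ hd0 (lt_of_le_of_ne hdn hne)

theorem coeff_Xser_of_lt {v : Vec M} (hr : v 0 ≠ 0) {n : ℕ} (hn : n < lead M (v 0)) :
    PowerSeries.coeff n (Xser M ζ v) = 0 := by
  by_cases h0 : n = 0
  · subst h0
    rw [coeff_Xser_zero]
    unfold x0
    rw [if_neg hr]
  · rw [coeff_Xser_of_ne_zero _ _ _ h0, xcoef_eq_zero_of_lt hr hn]

theorem coeff_Xser_lead {v : Vec M} (hr : v 0 ≠ 0) :
    PowerSeries.coeff (lead M (v 0)) (Xser M ζ v) = leadCoef M ζ v := by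
  rw [coeff_Xser_of_ne_zero _ _ _ (lead_pos hr).ne', xcoef_lead hr]

/-! ### The three shapes of the leading coefficient -/

theorem lead_cases {r : ZMod M} (hr : r ≠ 0) :
    (((lead M r : ℕ) : ZMod M) = r ∧ ¬ ((lead M r : ℕ) : ZMod M) = - r) ∨
    (¬ ((lead M r : ℕ) : ZMod M) = r ∧ ((lead M r : ℕ) : ZMod M) = - r) ∨
    (((lead M r : ℕ) : ZMod M) = r ∧ ((lead M r : ℕ) : ZMod M) = - r ∧ r = - r) := by
  have h1 := val_pos_of_ne_zero hr
  have h2 := ZMod.val_lt r
  have hdM : lead M r < M := lead_lt hr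
  have hlead : lead M r = min r.val (M - r.val) := rfl
  rw [natCast_eq_iff_of_lt hdM, natCast_eq_iff_of_lt hdM, neg_val_of_ne_zero hr]
  rcases lt_trichotomy r.val (M - r.val) with h | h | h
  · left
    omega
  · right; right
    refine ⟨by omega, by omega, ?_⟩
    apply ZMod.val_injective M
    rw [neg_val_of_ne_zero hr]
    exact h
  · right; left
    omega

/-! ### Two algebraic lemmas -/

theorem eq_or_eq_inv_of_add_inv_eq {a b : K} (ha : a ≠ 0) (hb : b ≠ 0)
    (h : a + a⁻¹ = b + b⁻¹) : a = b ∨ a = b⁻¹ := by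
  have h1 : (a - b) * (a * b - 1) = 0 := by
    have h2 : (a + a⁻¹) * (a * b) = (b + b⁻¹) * (a * b) := by rw [h]
    have e1 : a⁻¹ * (a * b) = b := by rw [← mul_assoc, inv_mul_cancel₀ ha, one_mul]
    have e2 : b⁻¹ * (a * b) = a := by rw [mul_comm a b, ← mul_assoc, inv_mul_cancel₀ hb, one_mul]
    have h3 : (a + a⁻¹) * (a * b) = a * a * b + b := by
      rw [add_mul, e1]; ring
    have h4 : (b + b⁻¹) * (a * b) = a * b * b + a := by
      rw [add_mul, e2]; ring
    rw [h3, h4] at h2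
    linear_combination h2
  rcases mul_eq_zero.1 h1 with h5 | h5
  · exact Or.inl (sub_eq_zero.1 h5)
  · exact Or.inr (eq_inv_of_mul_eq_one_left (sub_eq_zero.1 h5))

theorem eq_or_mul_eq_one_of_div_eq {a b : K} (ha1 : a ≠ 1) (hb1 : b ≠ 1)
    (h : a / (1 - a) ^ 2 = b / (1 - b) ^ 2) : a = b ∨ a * b = 1 := by
  have ha' : (1 - a) ^ 2 ≠ 0 := pow_ne_zero 2 (sub_ne_zero.2 (Ne.symm ha1))
  have hb' : (1 - b) ^ 2 ≠ 0 := pow_ne_zero 2 (sub_ne_zero.2 (Ne.symm hb1))
  rw [div_eq_div_iff ha' hb'] at h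
  have h1 : (a - b) * (1 - a * b) = 0 := by linear_combination h
  rcases mul_eq_zero.1 h1 with h5 | h5
  · exact Or.inl (sub_eq_zero.1 h5)
  · exact Or.inr (sub_eq_zero.1 h5).symm

theorem vec_ext {v w : Vec M} (h0 : v 0 = w 0) (h1 : v 1 = w 1) : v = w := by
  funext i
  fin_cases i
  · exact h0
  · exact h1

theorem one_ne_zero_of_zero {v : Vec M} (hv : v ≠ 0) (h0 : v 0 = 0) : v 1 ≠ 0 := by
  intro h1
  exact hv (vec_ext h0 h1)

/-! ### The constant coefficient -/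

theorem x0_ne_zero (hζ : IsPrimitiveRoot ζ M) {v : Vec M} (hv : v ≠ 0) (h0 : v 0 = 0) :
    x0 M ζ v ≠ 0 := by
  unfold x0
  rw [if_pos h0]
  have h1 : zpw M ζ (v 1) ≠ 1 := fun h =>
    one_ne_zero_of_zero hv h0 ((zpw_eq_one_iff hζ _).1 h)
  exact div_ne_zero (zpw_ne_zero hζ.pow_eq_one _)
    (pow_ne_zero 2 (sub_ne_zero.2 (Ne.symm h1)))

theorem x0_eq_zero {v : Vec M} (h0 : v 0 ≠ 0) : x0 M ζ v = 0 := by
  unfold x0
  rw [if_neg h0]

theorem x0_eq_of_Xser_eq {v w : Vec M} (h : Xser M ζ v = Xser M ζ w) : x0 M ζ v = x0 M ζ w := by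
  rw [← coeff_Xser_zero, ← coeff_Xser_zero, h]

/-! ### The comparison -/

theorem leadCoef_ne_zero_or (hζ : IsPrimitiveRoot ζ M) {v : Vec M} (hr : v 0 ≠ 0) :
    leadCoef M ζ v ≠ 0 ∨ v 0 = - v 0 := by
  rcases lead_cases hr with ⟨e1, e2⟩ | ⟨e1, e2⟩ | ⟨_, _, e3⟩
  · left
    unfold leadCoef
    rw [if_pos e1, if_neg e2, add_zero]
    exact zpw_ne_zero hζ.pow_eq_one _
  · left
    unfold leadCoef
    rw [if_neg e1, if_pos e2, zero_add]
    exact zpw_ne_zero hζ.pow_eq_one _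
  · exact Or.inr e3

theorem two_mul_lead_le (r : ZMod M) : 2 * lead M r ≤ M := by
  have h2 := ZMod.val_lt r
  have hlead : lead M r = min r.val (M - r.val) := rfl
  omega

theorem two_mul_lead_eq {r : ZMod M} (hr : r ≠ 0) (h : r = - r) : 2 * lead M r = M := by
  have h2 := ZMod.val_lt r
  have hlead : lead M r = min r.val (M - r.val) := rfl
  have h3 : r.val = M - r.val := by
    conv_lhs => rw [h]
    exact neg_val_of_ne_zero hr
  omega

theorem not_lead_lt (hζ : IsPrimitiveRoot ζ M) {v w : Vec M} (hv : v 0 ≠ 0) (hw : w 0 ≠ 0)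
    (h : Xser M ζ v = Xser M ζ w) : ¬ lead M (v 0) < lead M (w 0) := by
  intro hlt
  have h1 : leadCoef M ζ v = 0 := by
    rw [← coeff_Xser_lead hv, h]
    exact coeff_Xser_of_lt hw hlt
  rcases leadCoef_ne_zero_or hζ hv with h2 | h2
  · exact h2 h1
  · have h3 := two_mul_lead_eq hv h2
    have h4 := two_mul_lead_le (w 0)
    omega

theorem lead_eq_of_Xser_eq (hζ : IsPrimitiveRoot ζ M) {v w : Vec M} (hv : v 0 ≠ 0)
    (hw : w 0 ≠ 0) (h : Xser M ζ v = Xser M ζ w) : lead M (v 0) = lead M (w 0) :=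
  le_antisymm (not_lt.1 (not_lead_lt hζ hw hv h.symm)) (not_lt.1 (not_lead_lt hζ hv hw h))

/-- the case of equal first coordinates -/
theorem eq_or_eq_neg_of_same (hζ : IsPrimitiveRoot ζ M) {v w : Vec M} (hv : v 0 ≠ 0)
    (h0 : v 0 = w 0) (h : Xser M ζ v = Xser M ζ w) : v = w ∨ v = -w := by
  have hw : w 0 ≠ 0 := h0 ▸ hv
  have h1 : leadCoef M ζ v = leadCoef M ζ w := by
    rw [← coeff_Xser_lead hv, ← coeff_Xser_lead hw, h, h0]
  unfold leadCoef at h1
  rw [← h0] at h1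
  rcases lead_cases hv with ⟨e1, e2⟩ | ⟨e1, e2⟩ | ⟨e1, e2, e3⟩
  · rw [if_pos e1, if_neg e2, if_pos e1, if_neg e2, add_zero, add_zero] at h1
    exact Or.inl (vec_ext h0 (zpw_injective hζ h1))
  · rw [if_neg e1, if_pos e2, if_neg e1, if_pos e2, zero_add, zero_add] at h1
    exact Or.inl (vec_ext h0 (neg_injective (zpw_injective hζ h1)))
  · rw [if_pos e1, if_pos e2, if_pos e1, if_pos e2, zpw_neg hζ.pow_eq_one,
      zpw_neg hζ.pow_eq_one] at h1
    rcases eq_or_eq_inv_of_add_inv_eq (zpw_ne_zero hζ.pow_eq_one _)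
      (zpw_ne_zero hζ.pow_eq_one _) h1 with h2 | h2
    · exact Or.inl (vec_ext h0 (zpw_injective hζ h2))
    · right
      rw [← zpw_neg hζ.pow_eq_one] at h2
      refine vec_ext ?_ (zpw_injective hζ h2)
      show v 0 = - w 0
      rw [← h0]
      exact e3

/-- **`X_v = X_w ↔ v = ± w`** -/
theorem Xser_eq_iff (hζ : IsPrimitiveRoot ζ M) {v w : Vec M} (hv : v ≠ 0) (hw : w ≠ 0) :
    Xser M ζ v = Xser M ζ w ↔ v = w ∨ v = -w := by
  constructor
  · intro h
    by_cases hv0 : v 0 = 0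
    · have hw0 : w 0 = 0 := by
        by_contra hw0
        have := x0_eq_of_Xser_eq h
        rw [x0_eq_zero hw0] at this
        exact x0_ne_zero hζ hv hv0 this
      have h1 := x0_eq_of_Xser_eq h
      unfold x0 at h1
      rw [if_pos hv0, if_pos hw0] at h1
      have ha1 : zpw M ζ (v 1) ≠ 1 := fun h' =>
        one_ne_zero_of_zero hv hv0 ((zpw_eq_one_iff hζ _).1 h')
      have hb1 : zpw M ζ (w 1) ≠ 1 := fun h' =>
        one_ne_zero_of_zero hw hw0 ((zpw_eq_one_iff hζ _).1 h')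
      rcases eq_or_mul_eq_one_of_div_eq ha1 hb1 h1 with h2 | h2
      · exact Or.inl (vec_ext (hv0.trans hw0.symm) (zpw_injective hζ h2))
      · right
        rw [← zpw_add hζ.pow_eq_one, zpw_eq_one_iff hζ] at h2
        refine vec_ext ?_ ?_
        · show v 0 = - w 0
          rw [hv0, hw0, neg_zero]
        · show v 1 = - w 1
          exact eq_neg_of_add_eq_zero_left h2
    · have hw0 : w 0 ≠ 0 := by
        intro hw0
        have := x0_eq_of_Xser_eq h
        rw [x0_eq_zero hv0] at this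
        exact x0_ne_zero hζ hw hw0 this.symm
      have hl := lead_eq_of_Xser_eq hζ hv0 hw0 h
      rcases eq_or_eq_neg_of_lead_eq hv0 hw0 hl with h0 | h0
      · exact eq_or_eq_neg_of_same hζ hv0 h0 h
      · have h' : Xser M ζ v = Xser M ζ (-w) := by rw [Xser_neg hζ.pow_eq_one, h]
        rcases eq_or_eq_neg_of_same hζ hv0 (w := -w) h0 h' with h2 | h2
        · exact Or.inr h2
        · left
          rw [h2, neg_neg]
  · rintro (rfl | rfl)
    · rfl
    · exact Xser_neg hζ.pow_eq_one w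

/-- **`f_v = f_w ↔ v = ± w`** -/
theorem fF_eq_iff (hζ : IsPrimitiveRoot ζ M) (h12 : (12 : K) ≠ 0) {v w : Vec M} (hv : v ≠ 0)
    (hw : w ≠ 0) : fF M ζ v = fF M ζ w ↔ v = w ∨ v = -w := by
  rw [← Xser_eq_iff hζ hv hw]
  constructor
  · intro h
    unfold fF wpser at h
    have h0 : qExpand K M (wNorm K) ≠ 0 := by
      intro h0
      exact wNorm_ne_zero K (qExpand_injective (R := K) M (by rw [h0, map_zero]))
    have h1 := mul_left_cancel₀ h0 h
    have h2 := HahnSeries.ofPowerSeries_injective h1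
    have h3 : (12 : PowerSeries K) * Xser M ζ v = 12 * Xser M ζ w := add_right_cancel h2
    ext n
    have h4 := congrArg (PowerSeries.coeff n) h3
    have h12' : (12 : PowerSeries K) = PowerSeries.C (12 : K) := by
      rw [map_ofNat]
    rw [h12', PowerSeries.coeff_C_mul, PowerSeries.coeff_C_mul] at h4
    exact mul_left_cancel₀ h12 h4
  · intro h
    unfold fF wpser
    rw [h]

end Fermat.Agent.S48.B.Igusa.Full.Distinct

end
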