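import Mathlib
import Fermat.Agent.S48.B.Igusa.Full.Bridge
import Fermat.Agent.S48.B.Igusa.Full.Distinct

/-!
# PROJECT D (S48), part B, block B2, brick (A): the Fricke family `f_v` as a modular family of
level `M` (helper12)

* `rho M : SL(2, ZMod M) →* Equiv.Perm (Idx M)`, `Idx M = Option {v : Vec M // v ≠ 0}` :
  `rho g (some v) = some (v ᵥ* g⁻¹)`, `rho g none = none` (`none` = the index of `j`);
* `yF M ζ : Idx M → LaurentSeries K` : `none ↦ j(q^M)`, `some v ↦ f_v`; `FF K (yF M ζ) = FFull M ζ`;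
* `Wfun = E₄ E₆ / Δ` (weight `-2`);
* `WpData M P` : the analytic input (helper16's brick W, full family): `P v` holomorphic of weight `2`,
  permuted by `SL(2, ℤ)`, bounded at `i∞`, with `q`-expansion `12 X_v + 1` at `ζ = e(1/M)` in the
  variable `q = e(τ'/M)`;
* `modFamily` : under `WpData M P` and `WRep M` (the expansion of `Wfun`), the functions
  `Wfun * P v` and `j` form a `Bridge.ModFamily` with expansions `yF M ζ`.
-/

set_option autoImplicit false
set_option linter.unusedSectionVars false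

noncomputable section

namespace Fermat.Agent.S48.B.Igusa.Full.Family

open UpperHalfPlane ModularForm Filter Topology Function
open ModularCurve
open Fermat.Agent.S24.QRep Fermat.Agent.S24.Growth Fermat.Agent.LevelOne.JBasic
open Fermat.Agent.S48.B.Defs.Model
open Fermat.Agent.S48.B.Igusa.Full.Defs Fermat.Agent.S48.B.Igusa.Full.Bridge
open scoped MatrixGroups ModularForm Manifold

local notation "Δ" => ModularForm.discriminant

variable (M : ℕ) [NeZero M]

/-! ### The permutation representation -/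

/-- `v ↦ v ᵥ* g⁻¹` as a permutation of the row vectors -/
def vecPerm (g : SL(2, ZMod M)) : Equiv.Perm (Vec M) where
  toFun v := Matrix.vecMul v (g⁻¹ : SL(2, ZMod M)).1
  invFun v := Matrix.vecMul v g.1
  left_inv v := by
    show Matrix.vecMul (Matrix.vecMul v (g⁻¹ : SL(2, ZMod M)).1) g.1 = v
    rw [Matrix.vecMul_vecMul, ← Matrix.SpecialLinearGroup.coe_mul, inv_mul_cancel,
      Matrix.SpecialLinearGroup.coe_one, Matrix.vecMul_one]
  right_inv v := by
    show Matrix.vecMul (Matrix.vecMul v g.1) (g⁻¹ : SL(2, ZMod M)).1 = v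
    rw [Matrix.vecMul_vecMul, ← Matrix.SpecialLinearGroup.coe_mul, mul_inv_cancel,
      Matrix.SpecialLinearGroup.coe_one, Matrix.vecMul_one]

theorem vecPerm_apply (g : SL(2, ZMod M)) (v : Vec M) :
    vecPerm M g v = Matrix.vecMul v (g⁻¹ : SL(2, ZMod M)).1 := rfl

theorem vecPerm_ne_zero (g : SL(2, ZMod M)) (v : Vec M) : v ≠ 0 ↔ vecPerm M g v ≠ 0 := by
  constructor
  · intro hv h
    apply hv
    have := congrArg (vecPerm M g).symm h
    rw [Equiv.symm_apply_apply] at this
    rw [this]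
    show Matrix.vecMul (0 : Vec M) g.1 = 0
    exact Matrix.zero_vecMul _
  · intro hv h
    apply hv
    rw [h, vecPerm_apply]
    exact Matrix.zero_vecMul _

theorem vecPerm_one (v : Vec M) : vecPerm M 1 v = v := by
  rw [vecPerm_apply, inv_one, Matrix.SpecialLinearGroup.coe_one, Matrix.vecMul_one]

theorem vecPerm_mul (g h : SL(2, ZMod M)) (v : Vec M) :
    vecPerm M (g * h) v = vecPerm M g (vecPerm M h v) := by
  rw [vecPerm_apply, vecPerm_apply, vecPerm_apply, Matrix.vecMul_vecMul, mul_inv_rev,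
    Matrix.SpecialLinearGroup.coe_mul]

/-- the permutation of the nonzero vectors -/
def nzPerm (g : SL(2, ZMod M)) : Equiv.Perm (NZ M) :=
  (vecPerm M g).subtypeEquiv (vecPerm_ne_zero M g)

theorem coe_nzPerm (g : SL(2, ZMod M)) (v : NZ M) :
    ((nzPerm M g v : NZ M) : Vec M) = Matrix.vecMul v.1 (g⁻¹ : SL(2, ZMod M)).1 := rfl

/-- **the permutation representation on the generators** -/
def rho : SL(2, ZMod M) →* Equiv.Perm (Idx M) where
  toFun g := Equiv.optionCongr (nzPerm M g)
  map_one' := by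
    ext i : 1
    cases i with
    | none => rfl
    | some v =>
      show some (nzPerm M 1 v) = some v
      congr 1
      exact Subtype.ext (vecPerm_one M v.1)
  map_mul' g h := by
    ext i : 1
    cases i with
    | none => rfl
    | some v =>
      show some (nzPerm M (g * h) v) = some (nzPerm M g (nzPerm M h v))
      congr 1
      exact Subtype.ext (vecPerm_mul M g h v.1)

theorem rho_none (g : SL(2, ZMod M)) : rho M g none = none := rfl

theorem rho_some (g : SL(2, ZMod M)) (v : NZ M) : rho M g (some v) = some (nzPerm M g v) := rfl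

/-! ### Compatibility of the formal family with coefficient maps -/

section CoeffMap

variable {K L : Type*} [Field K] [Field L] (φ : K →+* L) (ζ : K)

theorem map_zpw (s : ZMod M) : φ (zpw M ζ s) = zpw M (φ ζ) s := by
  unfold zpw
  rw [map_pow]

theorem map_xterm (v : Vec M) (n d : ℕ) : φ (xterm M ζ v n d) = xterm M (φ ζ) v n d := by
  unfold xterm
  rw [map_mul, map_sub, map_add, map_mul, map_natCast, apply_ite φ, apply_ite φ, apply_ite φ,
    map_zpw, map_zpw, map_zero, map_one, map_ofNat]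

theorem map_xcoef (v : Vec M) (n : ℕ) : φ (xcoef M ζ v n) = xcoef M (φ ζ) v n := by
  unfold xcoef
  rw [map_sum]
  exact Finset.sum_congr rfl fun d _ => map_xterm M φ ζ v n d

theorem map_x0 (v : Vec M) : φ (x0 M ζ v) = x0 M (φ ζ) v := by
  unfold x0
  rw [apply_ite φ, map_div₀, map_pow, map_sub, map_one, map_zpw, map_zero]

theorem map_Xser (v : Vec M) : (Xser M ζ v).map φ = Xser M (φ ζ) v := by
  ext n
  rw [PowerSeries.coeff_map]
  by_cases hn : n = 0
  · subst hn
    rw [coeff_Xser_zero, coeff_Xser_zero, map_x0]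
  · rw [coeff_Xser_of_ne_zero _ _ _ hn, coeff_Xser_of_ne_zero _ _ _ hn, map_xcoef]

theorem map_wpser (v : Vec M) : (wpser M ζ v).map φ = wpser M (φ ζ) v := by
  unfold wpser
  rw [map_add, map_mul, map_Xser, map_one, map_ofNat]

theorem coeffMap_wNorm : coeffMap φ (wNorm K) = wNorm L := by
  unfold wNorm
  rw [map_mul, coeffMap_single, map_one, Fermat.Agent.S24.QRep.coeffMap_ofPowerSeries,
    ← RingHom.comp_apply (PowerSeries.map φ) (PowerSeries.map (Int.castRingHom K)),
    ← PowerSeries.map_comp, RingHom.ext_int (φ.comp (Int.castRingHom K)) (Int.castRingHom L)]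

theorem coeffMap_fF (v : Vec M) : coeffMap φ (fF M ζ v) = fF M (φ ζ) v := by
  unfold fF
  rw [map_mul, coeffMap_qExpand, coeffMap_wNorm, Fermat.Agent.S24.QRep.coeffMap_ofPowerSeries,
    map_wpser]

theorem coeffMap_yF (i : Idx M) : coeffMap φ (yF M ζ i) = yF M (φ ζ) i := by
  cases i with
  | none =>
    show coeffMap φ (jM K M) = jM L M
    unfold jM
    rw [coeffMap_qExpand, coeffMap_jqModC]
  | some v => exact coeffMap_fF M φ ζ v.1

end CoeffMap

/-! ### The analytic family -/

/-- `E₄ E₆ / Δ`, of weight `-2` -/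
def Wfun : ℍ → ℂ := fun τ => E₄ τ * E₆ τ / Δ τ

theorem mdiff_Wfun : MDiff Wfun :=
  (E₄.holo'.mul E₆.holo').div CuspForm.discriminant.holo' discriminant_ne_zero

theorem Wfun_smul (γ : SL(2, ℤ)) (τ : ℍ) :
    Wfun (γ • τ) = denom (γ : GL (Fin 2) ℝ) τ ^ (-2 : ℤ) * Wfun τ := by
  have hγ : (γ : GL (Fin 2) ℝ) ∈ 𝒮ℒ := ⟨γ, rfl⟩
  have h4 := SlashInvariantForm.slash_action_eqn'' E₄ hγ τ
  have h6 := SlashInvariantForm.slash_action_eqn'' E₆ hγ τ
  have h12 := SlashInvariantForm.slash_action_eqn'' CuspForm.discriminant hγ τ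
  have hd : denom (γ : GL (Fin 2) ℝ) τ ≠ 0 := denom_ne_zero _ _
  have hΔ := discriminant_ne_zero τ
  have h12' : Δ ((γ : GL (Fin 2) ℝ) • τ) = denom (γ : GL (Fin 2) ℝ) τ ^ (12 : ℤ) * Δ τ := h12
  simp only [Wfun]
  rw [show γ • τ = (γ : GL (Fin 2) ℝ) • τ from rfl, h4, h6, h12']
  have e1 : denom (γ : GL (Fin 2) ℝ) τ ^ (12 : ℤ) =
      denom (γ : GL (Fin 2) ℝ) τ ^ (4 : ℤ) * denom (γ : GL (Fin 2) ℝ) τ ^ (6 : ℤ) *
        denom (γ : GL (Fin 2) ℝ) τ ^ (2 : ℤ) := by
    rw [← zpow_add₀ hd, ← zpow_add₀ hd]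
    norm_num
  rw [e1, zpow_neg]
  have h2 := zpow_ne_zero (2 : ℤ) hd
  have h4' := zpow_ne_zero (4 : ℤ) hd
  have h6' := zpow_ne_zero (6 : ℤ) hd
  field_simp

theorem isModerate_Wfun : IsModerate Wfun := by
  refine ⟨1, ?_⟩
  have h4 : IsBoundedAtImInfty (E₄ : ℍ → ℂ) := (isQ_modularForm E₄).bdd
  have h6 : IsBoundedAtImInfty (E₆ : ℍ → ℂ) := (isQ_modularForm E₆).bdd
  refine (h4.mul h6).congr' (Eventually.of_forall fun τ => ?_) (EventuallyEq.refl _ _)
  simp only [Pi.mul_apply, Wfun, pow_one]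
  rw [div_mul_cancel₀ _ (discriminant_ne_zero τ)]

theorem isModerate_jFun : IsModerate jFun := by
  refine ⟨1, ?_⟩
  have h4 : IsBoundedAtImInfty (E₄ : ℍ → ℂ) := (isQ_modularForm E₄).bdd
  refine ((h4.mul h4).mul h4).congr' (Eventually.of_forall fun τ => ?_) (EventuallyEq.refl _ _)
  simp only [Pi.mul_apply, pow_one]
  rw [Fermat.Agent.S24.LevelOnePoly.jFun_mul_discriminant]
  ring

/-- `ζ_M = e(1/M)` -/
def zetaC : ℂ := Complex.exp (2 * Real.pi * Complex.I / M)

/-- **the analytic input** (brick W, full family): the division values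
`P v τ' = 12 (2πi)⁻² ℘((r τ' + s)/M; ℤ + τ' ℤ)`, `v = (r, s)` -/
structure WpData (P : Vec M → ℍ → ℂ) : Prop where
  hol : ∀ v, v ≠ 0 → MDiff (P v)
  smul : ∀ v, v ≠ 0 → ∀ (γ : SL(2, ℤ)) (τ : ℍ),
    P v (γ • τ) = denom (γ : GL (Fin 2) ℝ) τ ^ (2 : ℤ) * P (Matrix.vecMul v (red M γ).1) τ
  bdd : ∀ v, v ≠ 0 → IsBoundedAtImInfty (P v)
  isQ : ∀ v, v ≠ 0 → IsQ (dil M (P v))
  qexp : ∀ v, v ≠ 0 → qExpansion 1 (dil M (P v)) = wpser M (zetaC M) v

/-- the expansion of `E₄E₆/Δ` in the variable `q = e(τ'/M)` -/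
def WRep : Prop := Rep (dil M Wfun) (qExpand ℂ M (wNorm ℂ))

/-- the analytic family: `j` and the Fricke functions `Wfun * P v` -/
def PhiF (P : Vec M → ℍ → ℂ) : Idx M → ℍ → ℂ
  | none => jFun
  | some v => Wfun * P v.1

theorem rep_jM : Rep (dil M jFun) (jM ℂ M) := by
  have h := rep_jFun_dil M
  have h1 : coeffEmb ℂ jq = jqModC ℂ := by
    rw [← jqModC_rat]
    exact coeffMap_jqModC (algebraMap ℚ ℂ)
  rw [h1] at h
  exact h

variable {M}

/-- **the Fricke family is a modular family of level `M`** -/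
theorem modFamily {K : Type*} [Field K] (ι : K →+* ℂ) {ζ : K} (hζ : ι ζ = zetaC M)
    {P : Vec M → ℍ → ℂ} (hP : WpData M P) (hW : WRep M) :
    ModFamily ι M (rho M) none (PhiF M P) (yF M ζ) where
  hol i := by
    cases i with
    | none => exact mdifferentiable_jFun
    | some v => exact mdiff_Wfun.mul (hP.hol v.1 v.2)
  comp γ i τ := by
    cases i with
    | none => exact jFun_smul γ τ
    | some v =>
      show Wfun (γ • τ) * P v.1 (γ • τ) = Wfun τ * P (nzPerm M (red M γ)⁻¹ v).1 τ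
      rw [coe_nzPerm, inv_inv, Wfun_smul, hP.smul v.1 v.2]
      have hd : denom (γ : GL (Fin 2) ℝ) τ ≠ 0 := denom_ne_zero _ _
      rw [zpow_neg]
      have h2 := zpow_ne_zero (2 : ℤ) hd
      field_simp
  moderate i := by
    cases i with
    | none => exact isModerate_jFun
    | some v =>
      have hb : IsModerate (P v.1) := by
        refine ⟨0, ?_⟩
        refine (hP.bdd v.1 v.2).congr' (Eventually.of_forall fun τ => ?_) (EventuallyEq.refl _ _)
        show P v.1 τ = P v.1 τ * Δ τ ^ 0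
        rw [pow_zero, mul_one]
      exact isModerate_Wfun.mul hb
  rep i := by
    rw [coeffMap_yF, hζ]
    cases i with
    | none => exact rep_jM M
    | some v =>
      have h1 := hW.mul (Rep.of_isQ (hP.isQ v.1 v.2))
      rw [hP.qexp v.1 v.2] at h1
      exact h1
  base_fun := rfl
  base_ser := rfl
  base_fix _ := rfl

end Fermat.Agent.S48.B.Igusa.Full.Family

end
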