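import Mathlib
import Fermat.Agent.S48.B.Igusa.Full.Family

/-!
# PROJECT D (S48), part B, block B2, brick (A): `FF_M / K(j(q^M))` is Galois with group
`SL(2, ZMod M) / ±1` (helper12)

`K` a field with an embedding `ι : K →+* ℂ`, `ζ : K` with `ι ζ = e(1/M)`.  Under the analytic input
`Input M ι ζ` (helper16's brick W for the full family + the expansion of `E₄E₆/Δ`):

* `isGalois`, `finiteDimensional` : `FFull M ζ` is a finite Galois extension of `K0 M ζ = K(j(q^M))`;
* `act : SL(2, ZMod M) →* (FFull M ζ ≃ₐ[K0 M ζ] FFull M ζ)` with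
  `act g (f_v) = f_{v ᵥ* g⁻¹}` (`act_fF`), `act g (j(q^M)) = j(q^M)`;
* `act_surjective`; `act_eq_one_iff : act g = 1 ↔ g = 1 ∨ g = -1`;
* `act_fF_eq_iff : act g f_v = f_v ↔ v ᵥ* g⁻¹ = v ∨ v ᵥ* g⁻¹ = -v`.
-/

set_option autoImplicit false
set_option linter.unusedSectionVars false

noncomputable section

namespace Fermat.Agent.S48.B.Igusa.Full.Galois

open UpperHalfPlane
open Fermat.Agent.S24.QRep
open Fermat.Agent.S48.B.Igusa.Full.Defs Fermat.Agent.S48.B.Igusa.Full.Bridge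
open Fermat.Agent.S48.B.Igusa.Full.Family Fermat.Agent.S48.B.Igusa.Full.Distinct
open scoped MatrixGroups

variable {M : ℕ} [NeZero M] {K : Type*} [Field K]

/-- **the analytic input of the brick** -/
structure Input (M : ℕ) [NeZero M] (ι : K →+* ℂ) (ζ : K) : Prop where
  zeta : ι ζ = zetaC M
  wp : ∃ P : Vec M → ℍ → ℂ, WpData M P
  wrep : WRep M

variable {ι : K →+* ℂ} {ζ : K}

theorem isPrimitiveRoot (h : Input M ι ζ) : IsPrimitiveRoot ζ M := by
  have h1 : IsPrimitiveRoot (ι ζ) M := by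
    rw [h.zeta]
    exact Complex.isPrimitiveRoot_exp M (NeZero.ne M)
  exact IsPrimitiveRoot.of_map_of_injective h1 ι.injective

theorem twelve_ne_zero (ι : K →+* ℂ) : (12 : K) ≠ 0 := by
  intro h
  have := congrArg ι h
  rw [map_ofNat, map_zero] at this
  norm_num at this

theorem hasPerm (h : Input M ι ζ) : GalPerm.HasPerm K (yF M ζ) (rho M) := by
  obtain ⟨P, hP⟩ := h.wp
  exact Bridge.hasPerm (modFamily ι h.zeta hP h.wrep)

theorem hasInv (h : Input M ι ζ) : GalPerm.HasInv K (yF M ζ) (rho M) none := by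
  obtain ⟨P, hP⟩ := h.wp
  exact Bridge.hasInv (modFamily ι h.zeta hP h.wrep)

instance : Finite (SL(2, ZMod M)) := by
  exact Finite.of_injective (fun g : SL(2, ZMod M) => g.1) Subtype.val_injective

/-- **`FF_M` is Galois over `K(j(q^M))`** -/
theorem isGalois (h : Input M ι ζ) : IsGalois (K0 M ζ) (FFull M ζ) :=
  GalPerm.isGalois_base (hasPerm h) (fun _ => rfl) (hasInv h)

theorem finiteDimensional (h : Input M ι ζ) : FiniteDimensional (K0 M ζ) (FFull M ζ) :=
  GalPerm.finiteDimensional_base (hasPerm h) (fun _ => rfl) (hasInv h)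

/-- **the action of `SL(2, ZMod M)` on `FF_M`** -/
def act (h : Input M ι ζ) : SL(2, ZMod M) →* (FFull M ζ ≃ₐ[K0 M ζ] FFull M ζ) :=
  GalPerm.act (hasPerm h) (fun _ => rfl)

/-- `j(q^M)` as an element of `FF_M` -/
def jE (M : ℕ) [NeZero M] (ζ : K) : FFull M ζ := GalPerm.gen K (yF M ζ) none

/-- `f_v` as an element of `FF_M` -/
def fE (M : ℕ) [NeZero M] (ζ : K) (v : NZ M) : FFull M ζ := GalPerm.gen K (yF M ζ) (some v)

theorem coe_jE : ((jE M ζ : FFull M ζ) : LaurentSeries K) = jM K M := rfl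

theorem coe_fE (v : NZ M) : ((fE M ζ v : FFull M ζ) : LaurentSeries K) = fF M ζ v.1 := rfl

theorem act_jE (h : Input M ι ζ) (g : SL(2, ZMod M)) : act h g (jE M ζ) = jE M ζ :=
  GalPerm.act_gen (hasPerm h) (fun _ => rfl) g none

/-- **`act g f_v = f_{v ᵥ* g⁻¹}`** -/
theorem act_fE (h : Input M ι ζ) (g : SL(2, ZMod M)) (v : NZ M) :
    act h g (fE M ζ v) = fE M ζ (nzPerm M g v) :=
  GalPerm.act_gen (hasPerm h) (fun _ => rfl) g (some v)

theorem act_fF (h : Input M ι ζ) (g : SL(2, ZMod M)) (v : NZ M) :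
    ((act h g (fE M ζ v) : FFull M ζ) : LaurentSeries K) =
      fF M ζ (Matrix.vecMul v.1 (g⁻¹ : SL(2, ZMod M)).1) := by
  rw [act_fE, coe_fE, coe_nzPerm]

/-- **every automorphism of `FF_M` over `K(j(q^M))` comes from `SL(2, ZMod M)`** -/
theorem act_surjective (h : Input M ι ζ) : Function.Surjective (act h) :=
  GalPerm.act_surjective (hasPerm h) (fun _ => rfl) (hasInv h)

/-- the stabiliser of `f_v` -/
theorem act_fE_eq_iff (h : Input M ι ζ) (g : SL(2, ZMod M)) (v : NZ M) :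
    act h g (fE M ζ v) = fE M ζ v ↔
      Matrix.vecMul v.1 (g⁻¹ : SL(2, ZMod M)).1 = v.1 ∨
        Matrix.vecMul v.1 (g⁻¹ : SL(2, ZMod M)).1 = - v.1 := by
  rw [act_fE]
  have h1 : fE M ζ (nzPerm M g v) = fE M ζ v ↔ fF M ζ (nzPerm M g v).1 = fF M ζ v.1 := by
    constructor
    · intro h2
      exact congrArg Subtype.val h2
    · intro h2
      exact Subtype.ext h2
  rw [h1, fF_eq_iff (isPrimitiveRoot h) (twelve_ne_zero ι) (nzPerm M g v).2 v.2, coe_nzPerm]

/-! ### The kernel -/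

section Kernel

open Fermat.Agent.S48.B.Igusa.GroupGen

variable {R : Type*} [CommRing R]

theorem vecMul_e1 (A : SL(2, R)) : Matrix.vecMul ![(1 : R), 0] A.1 = ![A 0 0, A 0 1] := by
  funext j
  fin_cases j <;> simp [Matrix.vecMul, dotProduct, Fin.sum_univ_two]

theorem vecMul_e2 (A : SL(2, R)) : Matrix.vecMul ![(0 : R), 1] A.1 = ![A 1 0, A 1 1] := by
  funext j
  fin_cases j <;> simp [Matrix.vecMul, dotProduct, Fin.sum_univ_two]

theorem vecMul_e12 (A : SL(2, R)) :
    Matrix.vecMul ![(1 : R), 1] A.1 = ![A 0 0 + A 1 0, A 0 1 + A 1 1] := by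
  funext j
  fin_cases j <;> simp [Matrix.vecMul, dotProduct, Fin.sum_univ_two]

theorem vec2_eq_iff {a b c d : R} : (![a, b] : Fin 2 → R) = ![c, d] ↔ a = c ∧ b = d := by
  constructor
  · intro h
    exact ⟨congrFun h 0, congrFun h 1⟩
  · rintro ⟨rfl, rfl⟩
    rfl

theorem neg_vec2 (a b : R) : -(![a, b] : Fin 2 → R) = ![-a, -b] := by
  funext j
  fin_cases j <;> rfl

/-- a matrix acting by `±1` on every nonzero row vector is `±1` -/
theorem eq_one_or_neg_one (A : SL(2, R))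
    (hA : ∀ v : Fin 2 → R, v ≠ 0 → Matrix.vecMul v A.1 = v ∨ Matrix.vecMul v A.1 = -v) :
    A = 1 ∨ A = -1 := by
  by_cases h10 : (1 : R) = 0
  · left
    have : Subsingleton R := subsingleton_of_zero_eq_one h10.symm
    exact sl2_ext (Subsingleton.elim _ _) (Subsingleton.elim _ _) (Subsingleton.elim _ _)
      (Subsingleton.elim _ _)
  have he1 : (![(1 : R), 0] : Fin 2 → R) ≠ 0 := fun h => h10 (congrFun h 0)
  have he2 : (![(0 : R), 1] : Fin 2 → R) ≠ 0 := fun h => h10 (congrFun h 1)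
  have he12 : (![(1 : R), 1] : Fin 2 → R) ≠ 0 := fun h => h10 (congrFun h 0)
  have h1 := hA _ he1
  have h2 := hA _ he2
  have h3 := hA _ he12
  rw [vecMul_e1, neg_vec2, neg_zero, vec2_eq_iff, vec2_eq_iff] at h1
  rw [vecMul_e2, neg_vec2, neg_zero, vec2_eq_iff, vec2_eq_iff] at h2
  rw [vecMul_e12, neg_vec2, vec2_eq_iff, vec2_eq_iff] at h3
  have one11 : ((1 : SL(2, R)) 0 0 = 1) ∧ ((1 : SL(2, R)) 0 1 = 0) ∧ ((1 : SL(2, R)) 1 0 = 0) ∧
      ((1 : SL(2, R)) 1 1 = 1) := by
    refine ⟨?_, ?_, ?_, ?_⟩ <;> simp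
  have neg11 : ((-1 : SL(2, R)) 0 0 = -1) ∧ ((-1 : SL(2, R)) 0 1 = 0) ∧
      ((-1 : SL(2, R)) 1 0 = 0) ∧ ((-1 : SL(2, R)) 1 1 = -1) := by
    refine ⟨?_, ?_, ?_, ?_⟩ <;> simp
  obtain ⟨o1, o2, o3, o4⟩ := one11
  obtain ⟨n1, n2, n3, n4⟩ := neg11
  rcases h1 with ⟨a1, a2⟩ | ⟨a1, a2⟩ <;> rcases h2 with ⟨b1, b2⟩ | ⟨b1, b2⟩
  · left
    exact sl2_ext (a1.trans o1.symm) (a2.trans o2.symm) (b1.trans o3.symm) (b2.trans o4.symm)
  · -- `A = diag(1, -1)`: then `-1 = 1`
    have hneg : (-1 : R) = 1 := by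
      rcases h3 with ⟨c1, c2⟩ | ⟨c1, c2⟩
      · rw [a2, b2, zero_add] at c2
        exact c2
      · rw [a1, b1, add_zero] at c1
        exact c1.symm
    left
    refine sl2_ext (a1.trans o1.symm) (a2.trans o2.symm) (b1.trans o3.symm) ?_
    rw [b2, hneg, o4]
  · have hneg : (-1 : R) = 1 := by
      rcases h3 with ⟨c1, c2⟩ | ⟨c1, c2⟩
      · rw [a1, b1, add_zero] at c1
        exact c1
      · rw [a2, b2, zero_add] at c2
        exact c2.symm
    left
    refine sl2_ext ?_ (a2.trans o2.symm) (b1.trans o3.symm) (b2.trans o4.symm)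
    rw [a1, hneg, o1]
  · right
    exact sl2_ext (a1.trans n1.symm) (a2.trans n2.symm) (b1.trans n3.symm) (b2.trans n4.symm)

end Kernel

/-- **the kernel of the action is `±1`** -/
theorem act_eq_one_iff (h : Input M ι ζ) (g : SL(2, ZMod M)) :
    act h g = 1 ↔ g = 1 ∨ g = -1 := by
  have h0 : act h g = 1 ↔ ∀ i, yF M ζ (rho M g i) = yF M ζ i :=
    GalPerm.act_eq_one_iff (hasPerm h) (fun _ => rfl) g
  rw [h0]
  constructor
  · intro hg
    have h1 : g⁻¹ = 1 ∨ g⁻¹ = -1 := by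
      apply eq_one_or_neg_one
      intro v hv
      have h2 := hg (some ⟨v, hv⟩)
      rw [rho_some] at h2
      have h3 : fF M ζ (nzPerm M g ⟨v, hv⟩).1 = fF M ζ v := h2
      rw [fF_eq_iff (isPrimitiveRoot h) (twelve_ne_zero ι) (nzPerm M g ⟨v, hv⟩).2 hv,
        coe_nzPerm] at h3
      exact h3
    rcases h1 with h1 | h1
    · left
      exact inv_eq_one.1 h1
    · right
      rw [← inv_inv g, h1]
      exact Matrix.SpecialLinearGroup.ext _ _ (by
        intro i j
        rw [Matrix.SpecialLinearGroup.coe_inv, Matrix.SpecialLinearGroup.coe_neg,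
          Matrix.SpecialLinearGroup.coe_one, Matrix.adjugate_fin_two]
        fin_cases i <;> fin_cases j <;> simp)
  · rintro (rfl | rfl) i
    · rw [map_one]
      rfl
    · cases i with
      | none => rfl
      | some v =>
        rw [rho_some]
        show fF M ζ (nzPerm M (-1) v).1 = fF M ζ v.1
        rw [coe_nzPerm]
        have h5 : Matrix.vecMul v.1 ((-1 : SL(2, ZMod M))⁻¹ : SL(2, ZMod M)).1 = - v.1 := by
          have h6 : ((-1 : SL(2, ZMod M))⁻¹ : SL(2, ZMod M)) = -1 := by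
            rw [inv_eq_iff_eq_inv]
            exact Matrix.SpecialLinearGroup.ext _ _ (by
              intro i j
              rw [Matrix.SpecialLinearGroup.coe_inv, Matrix.SpecialLinearGroup.coe_neg,
                Matrix.SpecialLinearGroup.coe_one, Matrix.adjugate_fin_two]
              fin_cases i <;> fin_cases j <;> simp)
          rw [h6, Matrix.SpecialLinearGroup.coe_neg, Matrix.SpecialLinearGroup.coe_one,
            Matrix.vecMul_neg, Matrix.vecMul_one]
        rw [h5, fF_neg (isPrimitiveRoot h).pow_eq_one]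

/-! ### The upper unipotent is the substitution `q ↦ ζ q` -/

section Subst

open Fermat.Agent.S48.B.Igusa.GroupGen Fermat.Agent.S28.LaurentRescale

theorem vecMul_E12_one (v : Vec M) :
    Matrix.vecMul v (E12 (1 : ZMod M)).1 = shear v := by
  have hE : (E12 (1 : ZMod M)).1 = !![1, 1; 0, 1] := rfl
  rw [hE]
  funext j
  fin_cases j
  · show Matrix.vecMul v !![(1 : ZMod M), 1; 0, 1] 0 = v 0
    simp [Matrix.vecMul, dotProduct, Fin.sum_univ_two]
  · show Matrix.vecMul v !![(1 : ZMod M), 1; 0, 1] 1 = v 1 + v 0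
    simp [Matrix.vecMul, dotProduct, Fin.sum_univ_two, add_comm]

/-- **`act (1 1; 0 1)⁻¹` is the substitution `q ↦ ζ q`** (which fixes the `μ_M`-points `(0, s)`):
for every `x ∈ FF_M`, `act (E12 1)⁻¹ x = x(ζ q)`. -/
theorem act_E12_inv {u : Kˣ} (hu : u ^ M = 1) (h : Input M ι (u : K))
    (x : FFull M (u : K)) :
    ((act h (E12 (1 : ZMod M))⁻¹ x : FFull M (u : K)) : LaurentSeries K) =
      rescaleU u (x : LaurentSeries K) := by
  -- two `K`-algebra homomorphisms `FF_M → K((q))` agreeing on the generators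
  let φ₁ : FFull M (u : K) →ₐ[K] LaurentSeries K :=
    (FFull M (u : K)).val.comp
      (GalPerm.sig (hasPerm h) (E12 (1 : ZMod M))⁻¹ : FFull M (u : K) →ₐ[K] FFull M (u : K))
  let φ₂ : FFull M (u : K) →ₐ[K] LaurentSeries K :=
    (rescaleA u : LaurentSeries K →ₐ[K] LaurentSeries K).comp (FFull M (u : K)).val
  have h12 : φ₁ = φ₂ := by
    refine IntermediateField.adjoin_algHom_ext K ?_
    rintro y ⟨i, rfl⟩
    cases i with
    | none =>
      show ((act h (E12 (1 : ZMod M))⁻¹ (jE M (u : K)) : FFull M (u : K)) : LaurentSeries K) =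
        rescaleU u (jM K M)
      rw [act_jE, coe_jE, rescaleU_jM hu]
    | some v =>
      show ((act h (E12 (1 : ZMod M))⁻¹ (fE M (u : K) v) : FFull M (u : K)) : LaurentSeries K) =
        rescaleU u (fF M (u : K) v.1)
      rw [act_fF, inv_inv, vecMul_E12_one, rescaleU_fF hu]
  exact DFunLike.congr_fun h12 x

end Subst

end Fermat.Agent.S48.B.Igusa.Full.Galois

end
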