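import Mathlib
import Fermat.Agent.S48.B.Igusa.Full.Galois
import Fermat.Agent.S48.B.Igusa.Full.GalExt

/-!
# PROJECT D (S48), part B, block B2, brick (A): `FF_M` over `ℂ` contains the expansions of all the
modular functions of level `M` (helper12)

`LevelFun M h` : `h` is holomorphic on `ℍ`, invariant under `Γ(M)`, and all its `SL(2, ℤ)`-translates
have moderate growth at `i∞`.  For such an `h` (variable `τ' = M τ`, `q = e(τ'/M)`):

* `exists_rep` : `dil M h` has a Laurent expansion in `q`;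
* `mem_FFull` : this expansion lies in `FFull M (zetaC M) ⊆ ℂ((q))`;
* `act_rep` : `act (red γ)` sends it to the expansion of `h ∘ γ⁻¹`.

Proof: adjoin the translates `h ∘ lift k`, `k ∈ SL(2, ZMod M)`, to the Fricke family; the extended
family is again a `Bridge.ModFamily` with the same kernel `±1`, hence generates the same field
(`GalExt.FF_le_of_kernel`).
-/

set_option autoImplicit false
set_option linter.unusedSectionVars false

noncomputable section

namespace Fermat.Agent.S48.B.Igusa.Full.Level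

open UpperHalfPlane ModularForm Filter Topology Function
open ModularCurve
open Fermat.Agent.S24.QRep Fermat.Agent.S24.Growth Fermat.Agent.LevelOne.JBasic
open Fermat.Agent.S48.B.Igusa.Full.Defs Fermat.Agent.S48.B.Igusa.Full.Bridge
open Fermat.Agent.S48.B.Igusa.Full.Family Fermat.Agent.S48.B.Igusa.Full.Galois
open scoped MatrixGroups ModularForm Manifold

local notation "𝕢" => Periodic.qParam
local notation "Δ" => ModularForm.discriminant

variable (M : ℕ) [NeZero M]

/-! ### Reduction mod `M` is a homomorphism -/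

theorem red_mul (γ γ' : SL(2, ℤ)) : red M (γ * γ') = red M γ * red M γ' :=
  map_mul (Matrix.SpecialLinearGroup.map (Int.castRingHom (ZMod M))) γ γ'

theorem red_one : red M 1 = 1 :=
  map_one (Matrix.SpecialLinearGroup.map (Int.castRingHom (ZMod M)))

theorem red_inv (γ : SL(2, ℤ)) : red M γ⁻¹ = (red M γ)⁻¹ :=
  map_inv (Matrix.SpecialLinearGroup.map (Int.castRingHom (ZMod M))) γ

theorem red_neg (γ : SL(2, ℤ)) : red M (-γ) = - red M γ :=
  Matrix.SpecialLinearGroup.coe_int_neg γ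

theorem red_apply (γ : SL(2, ℤ)) (i j : Fin 2) : (red M γ) i j = ((γ i j : ℤ) : ZMod M) := rfl

theorem red_T_zpow : red M (ModularGroup.T ^ (M : ℤ)) = 1 := by
  apply Matrix.SpecialLinearGroup.ext
  intro i j
  rw [red_apply]
  have h := ModularGroup.coe_T_zpow (M : ℤ)
  have h' : ∀ i j, (ModularGroup.T ^ (M : ℤ)) i j = (!![1, (M : ℤ); 0, 1] : Matrix _ _ ℤ) i j :=
    fun i j => congrFun (congrFun h i) j
  rw [h']
  fin_cases i <;> fin_cases j <;> simp

theorem neg_one_inv : ((-1 : SL(2, ZMod M))⁻¹ : SL(2, ZMod M)) = -1 := by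
  apply inv_eq_of_mul_eq_one_right
  rw [neg_mul_neg, one_mul]

/-! ### Modular functions of level `M` -/

/-- **modular function of level `M`**, holomorphic on `ℍ`, meromorphic at the cusps -/
structure LevelFun (h : ℍ → ℂ) : Prop where
  hol : MDiff h
  inv : ∀ γ : SL(2, ℤ), red M γ = 1 → ∀ τ : ℍ, h (γ • τ) = h τ
  moderate : ∀ γ : SL(2, ℤ), IsModerate (fun τ : ℍ => h (γ • τ))

variable {M}

namespace LevelFun

variable {h : ℍ → ℂ}

theorem congr (hh : LevelFun M h) {γ₁ γ₂ : SL(2, ℤ)} (hred : red M γ₁ = red M γ₂) (τ : ℍ) :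
    h (γ₁ • τ) = h (γ₂ • τ) := by
  have h1 : γ₁ • τ = (γ₁ * γ₂⁻¹) • (γ₂ • τ) := by
    rw [← mul_smul, inv_mul_cancel_right]
  rw [h1]
  apply hh.inv
  rw [red_mul, red_inv, hred, mul_inv_cancel]

theorem congr_neg (hh : LevelFun M h) {γ₁ γ₂ : SL(2, ℤ)} (hred : red M γ₁ = - red M γ₂) (τ : ℍ) :
    h (γ₁ • τ) = h (γ₂ • τ) := by
  rw [hh.congr (γ₂ := -γ₂) (by rw [hred, red_neg]) τ, ModularGroup.SL_neg_smul]

theorem mdiff_comp (hh : LevelFun M h) (γ : SL(2, ℤ)) : MDiff (fun τ : ℍ => h (γ • τ)) := by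
  have h1 : MDiff (fun τ : ℍ => (Matrix.SpecialLinearGroup.mapGL ℝ γ) • τ) :=
    UpperHalfPlane.mdifferentiable_smul (by simp)
  exact hh.hol.comp h1

theorem comp (hh : LevelFun M h) (γ : SL(2, ℤ)) : LevelFun M (fun τ : ℍ => h (γ • τ)) where
  hol := hh.mdiff_comp γ
  inv γ₀ hγ₀ τ := by
    rw [← mul_smul]
    apply hh.congr
    rw [red_mul, hγ₀, mul_one]
  moderate γ' := by
    have h1 : (fun τ : ℍ => h (γ • (γ' • τ))) = fun τ : ℍ => h ((γ * γ') • τ) := by
      funext τ
      rw [mul_smul]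
    rw [h1]
    exact hh.moderate _

end LevelFun

/-! ### Existence of the expansion -/

theorem isBoundedAtImInfty_dil {F : ℍ → ℂ} (hF : IsBoundedAtImInfty F) :
    IsBoundedAtImInfty (dil M F) := by
  rw [isBoundedAtImInfty_iff] at hF ⊢
  obtain ⟨C, A, hCA⟩ := hF
  refine ⟨C, max A 0, fun z hz => ?_⟩
  apply hCA
  have h1 : (heckeDiagMatrix M • z : ℍ).im = (M : ℝ) * z.im := by
    have := congrArg Complex.im (coe_heckeDiagMatrix_smul (NeZero.ne M) z)
    rw [Complex.mul_im, Complex.natCast_re, Complex.natCast_im, zero_mul, add_zero] at this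
    exact this
  rw [h1]
  have hM1 : (1 : ℝ) ≤ M := by exact_mod_cast Nat.one_le_iff_ne_zero.2 (NeZero.ne M)
  have hz0 : 0 ≤ z.im := le_trans (le_max_right A 0) hz
  have hzA : A ≤ z.im := le_trans (le_max_left A 0) hz
  nlinarith

theorem dil_vadd_of_inv {h : ℍ → ℂ} (hh : LevelFun M h) (τ : ℍ) :
    dil M h ((1 : ℝ) +ᵥ τ) = dil M h τ := by
  have h1 : heckeDiagMatrix M • ((1 : ℝ) +ᵥ τ) = (M : ℝ) +ᵥ (heckeDiagMatrix M • τ) := by
    ext
    rw [coe_heckeDiagMatrix_smul (NeZero.ne M)]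
    simp [coe_heckeDiagMatrix_smul (NeZero.ne M)]
    ring
  have h2 : (M : ℝ) +ᵥ (heckeDiagMatrix M • τ) =
      ModularGroup.T ^ (M : ℤ) • (heckeDiagMatrix M • τ) := by
    rw [modular_T_zpow_smul, Int.cast_natCast]
  show h (heckeDiagMatrix M • ((1 : ℝ) +ᵥ τ)) = h (heckeDiagMatrix M • τ)
  rw [h1, h2]
  exact hh.inv _ (red_T_zpow M) _

/-- **the expansion exists** -/
theorem exists_rep {h : ℍ → ℂ} (hh : LevelFun M h) : ∃ s : LaurentSeries ℂ, Rep (dil M h) s := by
  obtain ⟨m, hm⟩ : IsModerate h := by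
    have := hh.moderate 1
    simpa only [one_smul] using this
  -- `h q^m` is bounded
  have h2 : IsBoundedAtImInfty (fun τ : ℍ => (𝕢 1 (τ : ℂ) / Δ τ) ^ m) := by
    have : Tendsto (fun τ : ℍ => (𝕢 1 (τ : ℂ) / Δ τ)) atImInfty (𝓝 (1⁻¹)) := by
      refine (Fermat.Agent.S24.LevelOnePoly.tendsto_discriminant_div_qParam.inv₀
        one_ne_zero).congr fun τ => ?_
      rw [inv_div]
    exact (this.pow m).isBigO_one ℝ
  have h3 : IsBoundedAtImInfty (fun τ : ℍ => h τ * 𝕢 1 τ ^ m) := by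
    refine (hm.mul h2).congr' (Eventually.of_forall fun τ => ?_) (EventuallyEq.refl _ _)
    have hΔ := discriminant_ne_zero τ
    simp only [Pi.mul_apply]
    rw [div_pow]
    field_simp
  have h4 := isBoundedAtImInfty_dil (M := M) h3
  set k : ℕ := M * m with hk
  have h5 : dil M (fun τ : ℍ => h τ * 𝕢 1 τ ^ m) = fun τ : ℍ => dil M h τ * 𝕢 1 τ ^ k := by
    funext τ
    show h (heckeDiagMatrix M • τ) * 𝕢 1 ((heckeDiagMatrix M • τ : ℍ) : ℂ) ^ m = _
    rw [qParam_dil, ← pow_mul]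
    rfl
  rw [h5] at h4
  have hQ : IsQ (fun τ : ℍ => dil M h τ * 𝕢 1 τ ^ k) := by
    refine ⟨periodic_of_vadd fun τ => ?_, ?_, h4⟩
    · show dil M h ((1 : ℝ) +ᵥ τ) * 𝕢 1 (((1 : ℝ) +ᵥ τ : ℍ) : ℂ) ^ k = dil M h τ * 𝕢 1 τ ^ k
      rw [dil_vadd_of_inv hh, qParam_vadd]
    · have h6 : MDiff (dil M h) := by
        rw [dil_eq_slash]
        exact hh.hol.slash _ _
      exact h6.mul (isQ_qParam.pow k).hol
  refine ⟨HahnSeries.ofPowerSeries ℤ ℂ (qExpansion 1 (fun τ : ℍ => dil M h τ * 𝕢 1 τ ^ k)) *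
    HahnSeries.single (-(k : ℤ)) 1, k, hQ, ?_⟩
  rw [mul_assoc, HahnSeries.single_mul_single, neg_add_cancel, one_mul, HahnSeries.single_zero_one,
    mul_one]

/-! ### The extended family -/

section Extended

/-- a lift of `k` to `SL(2, ℤ)` -/
def lift (k : SL(2, ZMod M)) : SL(2, ℤ) := Function.surjInv (red_surjective M) k

theorem red_lift (k : SL(2, ZMod M)) : red M (lift k) = k :=
  Function.surjInv_eq (red_surjective M) k

variable (M) in
/-- the index set of the extended family -/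
abbrev IdxX : Type := Idx M ⊕ SL(2, ZMod M)

variable (M) in
/-- the permutation representation on the extended index set: `rho` on the Fricke part, right
translation by `g⁻¹` on the group part -/
def rhoX : SL(2, ZMod M) →* Equiv.Perm (IdxX M) where
  toFun g := Equiv.sumCongr (rho M g) (Equiv.mulRight g⁻¹)
  map_one' := by
    ext i : 1
    cases i with
    | inl i =>
      show Sum.inl (rho M 1 i) = Sum.inl i
      rw [map_one]
      rfl
    | inr k =>
      show Sum.inr (k * (1 : SL(2, ZMod M))⁻¹) = Sum.inr k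
      rw [inv_one, mul_one]
  map_mul' g g' := by
    ext i : 1
    cases i with
    | inl i =>
      show Sum.inl (rho M (g * g') i) = Sum.inl (rho M g (rho M g' i))
      rw [map_mul]
      rfl
    | inr k =>
      show Sum.inr (k * (g * g')⁻¹) = Sum.inr (k * g'⁻¹ * g⁻¹)
      rw [mul_inv_rev, mul_assoc]

theorem rhoX_inl (g : SL(2, ZMod M)) (i : Idx M) : rhoX M g (Sum.inl i) = Sum.inl (rho M g i) := rfl

theorem rhoX_inr (g k : SL(2, ZMod M)) : rhoX M g (Sum.inr k) = Sum.inr (k * g⁻¹) := rfl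

/-- the extended analytic family -/
def PhiX (P : Vec M → ℍ → ℂ) (h : ℍ → ℂ) : IdxX M → ℍ → ℂ :=
  Sum.elim (PhiF M P) (fun k τ => h (lift k • τ))

variable {h : ℍ → ℂ}

/-- the expansion of the translate `h ∘ lift k` -/
def ser (hh : LevelFun M h) (k : SL(2, ZMod M)) : LaurentSeries ℂ :=
  (exists_rep (hh.comp (lift k))).choose

theorem rep_ser (hh : LevelFun M h) (k : SL(2, ZMod M)) :
    Rep (dil M (fun τ : ℍ => h (lift k • τ))) (ser hh k) :=
  (exists_rep (hh.comp (lift k))).choose_spec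

/-- the expansion of the translate by any `γ` is the series attached to `red γ` -/
theorem ser_eq (hh : LevelFun M h) (γ : SL(2, ℤ)) {s : LaurentSeries ℂ}
    (hs : Rep (dil M (fun τ : ℍ => h (γ • τ))) s) : ser hh (red M γ) = s := by
  have h1 : (fun τ : ℍ => h (lift (red M γ) • τ)) = fun τ : ℍ => h (γ • τ) := by
    funext τ
    exact hh.congr (red_lift _) τ
  have h2 := rep_ser hh (red M γ)
  rw [h1] at h2
  exact rep_unique h2 hs

theorem ser_one (hh : LevelFun M h) {s : LaurentSeries ℂ} (hs : Rep (dil M h) s) :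
    ser hh 1 = s := by
  rw [← red_one M]
  apply ser_eq hh 1
  simpa only [one_smul] using hs

theorem ser_neg (hh : LevelFun M h) (k : SL(2, ZMod M)) : ser hh (-k) = ser hh k := by
  have h1 : (fun τ : ℍ => h (lift (-k) • τ)) = fun τ : ℍ => h (lift k • τ) := by
    funext τ
    exact hh.congr_neg (by rw [red_lift, red_lift]) τ
  have h2 := rep_ser hh (-k)
  rw [h1] at h2
  exact rep_unique h2 (rep_ser hh k)

/-- the extended formal family -/
def yX (hh : LevelFun M h) : IdxX M → LaurentSeries ℂ :=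
  Sum.elim (yF M (zetaC M)) (ser hh)

theorem coeffMap_id (x : LaurentSeries ℂ) : coeffMap (RingHom.id ℂ) x = x := by
  ext n
  rw [coeffMap_coeff]
  rfl

/-- **the extended family is a modular family of level `M`** -/
theorem modFamilyX {P : Vec M → ℍ → ℂ} (hP : WpData M P) (hW : WRep M) (hh : LevelFun M h) :
    ModFamily (RingHom.id ℂ) M (rhoX M) (Sum.inl none) (PhiX P h) (yX hh) := by
  have h0 := modFamily (RingHom.id ℂ) (ζ := zetaC M) rfl hP hW
  refine ⟨?_, ?_, ?_, ?_, rfl, rfl, fun _ => rfl⟩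
  · intro i
    cases i with
    | inl i => exact h0.hol i
    | inr k => exact hh.mdiff_comp (lift k)
  · intro γ i τ
    cases i with
    | inl i => exact h0.comp γ i τ
    | inr k =>
      show h (lift k • (γ • τ)) = h (lift (k * ((red M γ)⁻¹)⁻¹) • τ)
      rw [← mul_smul]
      apply hh.congr
      rw [red_mul, red_lift, red_lift, inv_inv]
  · intro i
    cases i with
    | inl i => exact h0.moderate i
    | inr k => exact hh.moderate (lift k)
  · intro i
    cases i with
    | inl i => exact h0.rep i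
    | inr k =>
      show Rep (dil M (fun τ : ℍ => h (lift k • τ))) (coeffMap (RingHom.id ℂ) (ser hh k))
      rw [coeffMap_id]
      exact rep_ser hh k

end Extended

/-! ### The expansions of the level `M` functions lie in `FF_M` -/

section Main

variable {h : ℍ → ℂ}

/-- the analytic input over `ℂ` -/
theorem inputC {K : Type*} [Field K] {ι : K →+* ℂ} {ζ : K} (hIn : Input M ι ζ) :
    Input M (RingHom.id ℂ) (zetaC M) :=
  ⟨rfl, hIn.wp, hIn.wrep⟩

theorem hasPermX (hIn : Input M (RingHom.id ℂ) (zetaC M)) (hh : LevelFun M h) :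
    GalPerm.HasPerm ℂ (yX hh) (rhoX M) := by
  obtain ⟨P, hP⟩ := hIn.wp
  exact Bridge.hasPerm (modFamilyX hP hIn.wrep hh)

theorem hasInvX (hIn : Input M (RingHom.id ℂ) (zetaC M)) (hh : LevelFun M h) :
    GalPerm.HasInv ℂ (yX hh) (rhoX M) (Sum.inl none) := by
  obtain ⟨P, hP⟩ := hIn.wp
  exact Bridge.hasInv (modFamilyX hP hIn.wrep hh)

/-- an element of `SL(2, ZMod M)` fixing the Fricke family pointwise is `±1` -/
theorem eq_one_or_neg_one_of_fix (hIn : Input M (RingHom.id ℂ) (zetaC M)) (g : SL(2, ZMod M))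
    (hg : ∀ i, yF M (zetaC M) (rho M g i) = yF M (zetaC M) i) : g = 1 ∨ g = -1 :=
  (Galois.act_eq_one_iff hIn g).1
    ((GalPerm.act_eq_one_iff (Galois.hasPerm hIn) (fun _ => rfl) g).2 hg)

/-- **the extended family generates `FF_M`** -/
theorem FFX_le (hIn : Input M (RingHom.id ℂ) (zetaC M)) (hh : LevelFun M h) :
    GalPerm.FF ℂ (yX hh) ≤ FFull M (zetaC M) := by
  refine GalExt.FF_le_of_kernel (y := yF M (zetaC M)) (y' := yX hh) (ρ' := rhoX M) Sum.inl
    (fun _ => rfl) (hasPermX hIn hh) (i₀ := none) (fun _ => rfl) (hasInvX hIn hh) ?_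
  intro g hg j
  rcases eq_one_or_neg_one_of_fix hIn g hg with rfl | rfl
  · rw [map_one]
    rfl
  · cases j with
    | inl i => exact hg i
    | inr k =>
      show ser hh (k * ((-1 : SL(2, ZMod M))⁻¹ : SL(2, ZMod M))) = ser hh k
      rw [neg_one_inv, mul_neg, mul_one, ser_neg]

theorem ser_mem (hIn : Input M (RingHom.id ℂ) (zetaC M)) (hh : LevelFun M h)
    (k : SL(2, ZMod M)) : ser hh k ∈ FFull M (zetaC M) :=
  FFX_le hIn hh (IntermediateField.subset_adjoin ℂ _ ⟨Sum.inr k, rfl⟩)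

/-- **the expansion of a modular function of level `M` lies in `FF_M`** (over `ℂ`) -/
theorem mem_FFull (hIn : Input M (RingHom.id ℂ) (zetaC M)) (hh : LevelFun M h)
    {s : LaurentSeries ℂ} (hs : Rep (dil M h) s) : s ∈ FFull M (zetaC M) := by
  rw [← ser_one hh hs]
  exact ser_mem hIn hh 1

/-- **the Galois action on the expansions** : `act (red γ)` sends the expansion of `h` to the
expansion of `h ∘ γ⁻¹` -/
theorem act_rep (hIn : Input M (RingHom.id ℂ) (zetaC M)) (hh : LevelFun M h)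
    {s s' : LaurentSeries ℂ} (hs : Rep (dil M h) s) (γ : SL(2, ℤ))
    (hs' : Rep (dil M (fun τ : ℍ => h (γ⁻¹ • τ))) s') (hmem : s ∈ FFull M (zetaC M)) :
    ((Galois.act hIn (red M γ) ⟨s, hmem⟩ : FFull M (zetaC M)) : LaurentSeries ℂ) = s' := by
  have h1 := GalExt.coe_sig_eq (y := yF M (zetaC M)) (y' := yX hh) (ρ := rho M) (ρ' := rhoX M)
    Sum.inl (fun _ => rfl) (Galois.hasPerm hIn) (hasPermX hIn hh) (fun _ _ => rfl) (red M γ)
    ⟨s, hmem⟩
  have h2 : IntermediateField.inclusion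
      (GalExt.FF_le_of_sub (y := yF M (zetaC M)) (y' := yX hh) Sum.inl (fun _ => rfl))
      (⟨s, hmem⟩ : FFull M (zetaC M)) = GalPerm.gen ℂ (yX hh) (Sum.inr 1) := by
    apply Subtype.ext
    show s = ser hh 1
    rw [ser_one hh hs]
  rw [h2, GalPerm.sig_gen, GalPerm.coe_gen, rhoX_inr, one_mul, ← red_inv] at h1
  show ((GalPerm.sig (Galois.hasPerm hIn) (red M γ) ⟨s, hmem⟩ : FFull M (zetaC M)) :
    LaurentSeries ℂ) = s'
  rw [h1]
  exact ser_eq hh γ⁻¹ hs'

/-- **the stabiliser of an expansion** : `act (red γ)` fixes the expansion of `h` iff `h ∘ γ = h` -/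
theorem act_fix_iff (hIn : Input M (RingHom.id ℂ) (zetaC M)) (hh : LevelFun M h)
    {s : LaurentSeries ℂ} (hs : Rep (dil M h) s) (hmem : s ∈ FFull M (zetaC M)) (γ : SL(2, ℤ)) :
    Galois.act hIn (red M γ) ⟨s, hmem⟩ = ⟨s, hmem⟩ ↔ ∀ τ : ℍ, h (γ • τ) = h τ := by
  obtain ⟨s', hs'⟩ := exists_rep (hh.comp γ⁻¹)
  have h1 := act_rep hIn hh hs γ hs' hmem
  rw [Subtype.ext_iff, h1]
  constructor
  · intro h2 τ
    rw [h2] at hs'
    have h3 := rep_fun_eq hs' hs
    obtain ⟨τ₀, hτ₀⟩ := exists_dil_eq M (γ • τ)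
    have h4 := congrFun h3 τ₀
    have h5 : h (γ⁻¹ • (heckeDiagMatrix M • τ₀)) = h (heckeDiagMatrix M • τ₀) := h4
    rw [hτ₀, inv_smul_smul] at h5
    exact h5.symm
  · intro h2
    have h3 : (fun τ : ℍ => h (γ⁻¹ • τ)) = h := by
      funext τ
      have := h2 (γ⁻¹ • τ)
      rw [smul_inv_smul] at this
      exact this.symm
    rw [h3] at hs'
    exact rep_unique hs' hs

end Main

end Fermat.Agent.S48.B.Igusa.Full.Level

end
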