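import Mathlib
import Fermat.Agent.S48.B.Igusa.Full.Level
import Fermat.Agent.S48.B.Igusa.Full.BaseChange

/-!
# PROJECT D (S48), part B, block B2, brick (A), exports (E4) (helper12)

`K` a field with `ι : K →+* ℂ`, `ζ : K`, `h : Input M ι ζ`.

* `jMul_mem (hn : n ∣ M) : j(q^{nM}) ∈ FFull M ζ`, `jDiv_mem (hd : d ∣ M) : j(q^d) ∈ FFull M ζ`;
* `F1_le : laurentBaseChange K (F1 M) ≤ FFull M ζ`;
* `act_jMM_iff : act h g j(q^{M²}) = j(q^{M²}) ↔ g 1 0 = 0` (upper triangular),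
  `act_j1_iff : act h g j(q) = j(q) ↔ g 0 1 = 0` (lower triangular).
-/

set_option autoImplicit false
set_option linter.unusedSectionVars false

noncomputable section

namespace Fermat.Agent.S48.B.Igusa.Full.Extra

open UpperHalfPlane ModularForm Filter Topology Function CongruenceSubgroup
open ModularCurve
open Fermat.Agent.S24.QRep Fermat.Agent.S24.Growth Fermat.Agent.LevelOne.JBasic
open Fermat.Agent.S48.B.Defs.Model
open Fermat.Agent.S48.B.Igusa.Full.Defs Fermat.Agent.S48.B.Igusa.Full.Bridge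
open Fermat.Agent.S48.B.Igusa.Full.Family Fermat.Agent.S48.B.Igusa.Full.Galois
open Fermat.Agent.S48.B.Igusa.Full.Level
open scoped MatrixGroups ModularForm Manifold

variable {M : ℕ} [NeZero M]

/-! ### The functions `j(n τ')` and `j(τ'/e)` are of level `M` -/

theorem mem_Gamma0_iff_red (γ : SL(2, ℤ)) : γ ∈ Gamma0 M ↔ (red M γ) 1 0 = 0 := Iff.rfl

/-- `τ' ↦ j(n τ')`, `n ∣ M`, is of level `M` -/
theorem levelFun_dil {n : ℕ} [NeZero n] (hn : n ∣ M) : LevelFun M (dil n jFun) where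
  hol := by
    have h1 := mdiff_jFun_comp n 1
    simp only [one_smul] at h1
    exact h1
  inv γ hγ τ := by
    apply Fermat.Agent.S24.LevelOnePoly.jFun_heckeDiagMatrix_smul_of_mem_Gamma0 hn γ _ τ
    rw [mem_Gamma0_iff_red, hγ]
    rfl
  moderate γ := isModerate_jFun_comp n γ

theorem heckeDiag_smul_smul (a b : ℕ) [NeZero a] [NeZero b] (τ : ℍ) :
    heckeDiagMatrix a • (heckeDiagMatrix b • τ) = heckeDiagMatrix (a * b) • τ := by
  have hab : a * b ≠ 0 := mul_ne_zero (NeZero.ne a) (NeZero.ne b)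
  ext
  rw [coe_heckeDiagMatrix_smul (NeZero.ne a), coe_heckeDiagMatrix_smul (NeZero.ne b),
    coe_heckeDiagMatrix_smul hab]
  push_cast
  ring

theorem coeffEmb_jq : coeffEmb ℂ jq = jqModC ℂ := by
  rw [← jqModC_rat]
  exact coeffMap_jqModC (algebraMap ℚ ℂ)

/-- the expansion of `j(n τ')` in `q = e(τ'/M)` is `j(q^{nM})` -/
theorem rep_dil_dil (n : ℕ) [NeZero n] :
    Rep (dil M (dil n jFun)) (qExpand ℂ (n * M) (jqModC ℂ)) := by
  have : NeZero (n * M) := ⟨mul_ne_zero (NeZero.ne n) (NeZero.ne M)⟩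
  have h1 := rep_jFun_dil (n * M)
  rw [coeffEmb_jq] at h1
  have h2 : dil M (dil n jFun) = dil (n * M) jFun := by
    funext τ
    show jFun (heckeDiagMatrix n • (heckeDiagMatrix M • τ)) = jFun (heckeDiagMatrix (n * M) • τ)
    rw [heckeDiag_smul_smul]
  rw [h2]
  exact h1

/-- `τ' ↦ j(-e/τ') = j(τ'/e)` -/
def jS (e : ℕ) : ℍ → ℂ := fun τ => dil e jFun (ModularGroup.S • τ)

theorem levelFun_jS {e : ℕ} [NeZero e] (he : e ∣ M) : LevelFun M (jS e) :=
  (levelFun_dil he).comp ModularGroup.S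

theorem coe_S_smul (z : ℍ) : ((ModularGroup.S • z : ℍ) : ℂ) = (-(z : ℂ))⁻¹ := by
  rw [modular_S_smul]

/-- the expansion of `j(τ'/e)` in `q = e(τ'/M)` is `j(q^d)`, `d e = M` -/
theorem rep_dil_jS {d e : ℕ} [NeZero d] [NeZero e] (hde : d * e = M) :
    Rep (dil M (jS e)) (qExpand ℂ d (jqModC ℂ)) := by
  have h1 := rep_jFun_dil d
  rw [coeffEmb_jq] at h1
  have h2 : dil M (jS e) = dil d jFun := by
    funext τ
    show jFun (heckeDiagMatrix e • (ModularGroup.S • (heckeDiagMatrix M • τ))) =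
      jFun (heckeDiagMatrix d • τ)
    have h3 : heckeDiagMatrix e • (ModularGroup.S • (heckeDiagMatrix M • τ)) =
        ModularGroup.S • (heckeDiagMatrix d • τ) := by
      ext
      rw [coe_heckeDiagMatrix_smul (NeZero.ne e), coe_S_smul, coe_S_smul,
        coe_heckeDiagMatrix_smul (NeZero.ne M), coe_heckeDiagMatrix_smul (NeZero.ne d), ← hde]
      have hτ : (τ : ℂ) ≠ 0 := ne_zero τ
      have hd : (d : ℂ) ≠ 0 := by exact_mod_cast NeZero.ne d
      have he : (e : ℂ) ≠ 0 := by exact_mod_cast NeZero.ne e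
      push_cast
      field_simp
    rw [h3, jFun_smul]
  rw [h2]
  exact h1

/-! ### Membership over `ℂ` -/

section OverC

variable (hIn : Input M (RingHom.id ℂ) (zetaC M))
include hIn

theorem jMul_mem_C {n : ℕ} [NeZero n] (hn : n ∣ M) :
    qExpand ℂ (n * M) (jqModC ℂ) ∈ FFull M (zetaC M) :=
  mem_FFull hIn (levelFun_dil hn) (rep_dil_dil n)

theorem jDiv_mem_C {d : ℕ} [NeZero d] (hd : d ∣ M) :
    qExpand ℂ d (jqModC ℂ) ∈ FFull M (zetaC M) := by
  obtain ⟨e, he⟩ := hd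
  have : NeZero e := ⟨fun h0 => NeZero.ne M (by rw [he, h0, mul_zero])⟩
  exact mem_FFull hIn (levelFun_jS (Dvd.intro_left d he.symm)) (rep_dil_jS he.symm)

theorem jq_mem_C : jqModC ℂ ∈ FFull M (zetaC M) := by
  have h1 := jDiv_mem_C hIn (one_dvd M)
  rwa [qExpand_one_apply] at h1

omit hIn in
theorem conjS_apply (γ : SL(2, ℤ)) :
    (ModularGroup.S * γ * ModularGroup.S⁻¹) 1 0 = - γ 0 1 := by
  rw [ModularGroup.S_inv]
  have h1 : ((ModularGroup.S * γ * -ModularGroup.S : SL(2, ℤ)) : Matrix (Fin 2) (Fin 2) ℤ) =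
      !![0, -1; 1, 0] * (γ : Matrix (Fin 2) (Fin 2) ℤ) * -!![0, -1; 1, 0] := by
    rw [Matrix.SpecialLinearGroup.coe_mul, Matrix.SpecialLinearGroup.coe_mul,
      Matrix.SpecialLinearGroup.coe_neg, ModularGroup.coe_S]
  have h2 := congrFun (congrFun h1 1) 0
  rw [h2]
  simp [Matrix.mul_apply, Fin.sum_univ_two, Matrix.vecMul, dotProduct]

/-- **the stabiliser of `j(q^{M²})` is the upper Borel** (over `ℂ`) -/
theorem act_jMM_iff_C (g : SL(2, ZMod M)) :
    Galois.act hIn g ⟨qExpand ℂ (M * M) (jqModC ℂ), jMul_mem_C hIn dvd_rfl⟩ =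
      ⟨qExpand ℂ (M * M) (jqModC ℂ), jMul_mem_C hIn dvd_rfl⟩ ↔ g 1 0 = 0 := by
  obtain ⟨γ, rfl⟩ := red_surjective M g
  rw [act_fix_iff hIn (levelFun_dil dvd_rfl) (rep_dil_dil M) _ γ, ← mem_Gamma0_iff_red]
  constructor
  · intro h
    exact Fermat.Agent.S24.LevelOnePoly.mem_Gamma0_of_jFun_eq γ h
  · intro hγ τ
    exact Fermat.Agent.S24.LevelOnePoly.jFun_heckeDiagMatrix_smul_of_mem_Gamma0 dvd_rfl γ hγ τ

omit hIn in
theorem rep_jS_self : Rep (dil M (jS M)) (jqModC ℂ) := by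
  have h1 := rep_dil_jS (d := 1) (e := M) (one_mul M)
  rwa [qExpand_one_apply] at h1

/-- **the stabiliser of `j(q)` is the lower Borel** (over `ℂ`) -/
theorem act_j1_iff_C (g : SL(2, ZMod M)) :
    Galois.act hIn g ⟨jqModC ℂ, jq_mem_C hIn⟩ = ⟨jqModC ℂ, jq_mem_C hIn⟩ ↔ g 0 1 = 0 := by
  obtain ⟨γ, rfl⟩ := red_surjective M g
  rw [act_fix_iff hIn (levelFun_jS dvd_rfl) rep_jS_self _ γ]
  have key : (∀ τ : ℍ, jS M (γ • τ) = jS M τ) ↔
      ModularGroup.S * γ * ModularGroup.S⁻¹ ∈ Gamma0 M := by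
    constructor
    · intro h
      apply Fermat.Agent.S24.LevelOnePoly.mem_Gamma0_of_jFun_eq
      intro τ
      have h1 : jFun (heckeDiagMatrix M • (ModularGroup.S • (γ • (ModularGroup.S⁻¹ • τ)))) =
          jFun (heckeDiagMatrix M • (ModularGroup.S • (ModularGroup.S⁻¹ • τ))) :=
        h (ModularGroup.S⁻¹ • τ)
      rw [smul_inv_smul] at h1
      rw [mul_smul, mul_smul]
      exact h1
    · intro hmem τ
      have h1 := Fermat.Agent.S24.LevelOnePoly.jFun_heckeDiagMatrix_smul_of_mem_Gamma0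
        (dvd_refl M) _ hmem (ModularGroup.S • τ)
      rw [mul_smul, mul_smul, inv_smul_smul] at h1
      exact h1
  rw [key, mem_Gamma0_iff_red, red_apply, conjS_apply, red_apply]
  push_cast
  exact neg_eq_zero

end OverC

/-! ### Descent to `K` -/

section OverK

variable {K : Type*} [Field K] {ι : K →+* ℂ} {ζ : K} (h : Input M ι ζ)
include h

theorem coeffMap_yF' (i : Idx M) : coeffMap ι (yF M ζ i) = yF M (zetaC M) i := by
  rw [coeffMap_yF, h.zeta]

/-- coefficient extension maps `FF_M` over `K` into `FF_M` over `ℂ` -/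
theorem coeffMap_mem {x : LaurentSeries K} (hx : x ∈ FFull M ζ) :
    coeffMap ι x ∈ FFull M (zetaC M) :=
  BaseChange.coeffMap_mem_FF ι (coeffMap_yF' h) hx

/-- **descent** -/
theorem mem_of_coeffMap_mem {x : LaurentSeries K} (hx : coeffMap ι x ∈ FFull M (zetaC M)) :
    x ∈ FFull M ζ :=
  BaseChange.mem_FF_of_coeffMap_mem ι (coeffMap_yF' h) hx

/-- the Galois actions over `K` and over `ℂ` correspond -/
theorem coeffMap_act (g : SL(2, ZMod M)) (x : FFull M ζ) :
    coeffMap ι ((Galois.act h g x : FFull M ζ) : LaurentSeries K) =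
      ((Galois.act (inputC h) g ⟨coeffMap ι (x : LaurentSeries K), coeffMap_mem h x.2⟩ :
        FFull M (zetaC M)) : LaurentSeries ℂ) :=
  BaseChange.coeffMap_sig ι (coeffMap_yF' h) (Galois.hasPerm h) (Galois.hasPerm (inputC h)) g x

theorem act_fix_iff_C (g : SL(2, ZMod M)) {x : LaurentSeries K} (hx : x ∈ FFull M ζ) :
    Galois.act h g ⟨x, hx⟩ = ⟨x, hx⟩ ↔
      Galois.act (inputC h) g ⟨coeffMap ι x, coeffMap_mem h hx⟩ =
        ⟨coeffMap ι x, coeffMap_mem h hx⟩ := by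
  rw [Subtype.ext_iff, Subtype.ext_iff, ← coeffMap_act h g ⟨x, hx⟩]
  exact ((coeffMap ι).injective.eq_iff).symm

theorem coeffMap_qExpand_jq (e : ℕ) [NeZero e] :
    coeffMap ι (qExpand K e (jqModC K)) = qExpand ℂ e (jqModC ℂ) := by
  rw [coeffMap_qExpand, coeffMap_jqModC]

/-- **`j(q^{nM}) ∈ FF_M`, `n ∣ M`** -/
theorem jMul_mem {n : ℕ} [NeZero n] (hn : n ∣ M) : qExpand K (n * M) (jqModC K) ∈ FFull M ζ := by
  have : NeZero (n * M) := ⟨mul_ne_zero (NeZero.ne n) (NeZero.ne M)⟩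
  apply mem_of_coeffMap_mem h
  rw [coeffMap_qExpand_jq h]
  exact jMul_mem_C (inputC h) hn

/-- **`j(q^d) ∈ FF_M`, `d ∣ M`** -/
theorem jDiv_mem {d : ℕ} [NeZero d] (hd : d ∣ M) : qExpand K d (jqModC K) ∈ FFull M ζ := by
  apply mem_of_coeffMap_mem h
  rw [coeffMap_qExpand_jq h]
  exact jDiv_mem_C (inputC h) hd

/-- the same with the factors commuted -/
theorem jMul_mem' {n : ℕ} [NeZero n] (hn : n ∣ M) : qExpand K (M * n) (jqModC K) ∈ FFull M ζ := by
  have h1 := jMul_mem h hn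
  have h2 : ∀ (a b : ℕ) [NeZero a] [NeZero b], a = b →
      qExpand K a (jqModC K) = qExpand K b (jqModC K) := by
    intro a b _ _ hab
    subst hab
    rfl
  rw [h2 (M * n) (n * M) (mul_comm M n)]
  exact h1

theorem jq_mem : jqModC K ∈ FFull M ζ := by
  have h1 := jDiv_mem h (one_dvd M)
  rwa [qExpand_one_apply] at h1

theorem act_fix_iff_C' (g : SL(2, ZMod M)) {x : LaurentSeries K} (hx : x ∈ FFull M ζ)
    {xC : LaurentSeries ℂ} (hxC : xC ∈ FFull M (zetaC M)) (hxx : coeffMap ι x = xC) :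
    Galois.act h g ⟨x, hx⟩ = ⟨x, hx⟩ ↔ Galois.act (inputC h) g ⟨xC, hxC⟩ = ⟨xC, hxC⟩ := by
  subst hxx
  exact act_fix_iff_C h g hx

/-- **the stabiliser of `j(q^{M²})` is the upper Borel** -/
theorem act_jMM_iff (g : SL(2, ZMod M)) :
    Galois.act h g ⟨qExpand K (M * M) (jqModC K), jMul_mem h dvd_rfl⟩ =
      ⟨qExpand K (M * M) (jqModC K), jMul_mem h dvd_rfl⟩ ↔ g 1 0 = 0 := by
  have : NeZero (M * M) := ⟨mul_ne_zero (NeZero.ne M) (NeZero.ne M)⟩
  exact (act_fix_iff_C' h g _ _ (coeffMap_qExpand_jq h (M * M))).trans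
    (act_jMM_iff_C (inputC h) g)

/-- **the stabiliser of `j(q)` is the lower Borel** -/
theorem act_j1_iff (g : SL(2, ZMod M)) :
    Galois.act h g ⟨jqModC K, jq_mem h⟩ = ⟨jqModC K, jq_mem h⟩ ↔ g 0 1 = 0 :=
  (act_fix_iff_C' h g _ _ (coeffMap_jqModC ι)).trans (act_j1_iff_C (inputC h) g)

omit h in
theorem coeffMap_frickeH {K L : Type*} [Field K] [Field L] (φ : K →+* L) (a : ZMod M) :
    coeffMap φ (frickeH K M a) = frickeH L M a := by
  unfold frickeH
  rw [map_mul, coeffMap_qExpand, coeffMap_wNorm, Fermat.Agent.S24.QRep.coeffMap_ofPowerSeries,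
    ← RingHom.comp_apply (PowerSeries.map φ) (PowerSeries.map (Int.castRingHom K)),
    ← PowerSeries.map_comp, RingHom.ext_int (φ.comp (Int.castRingHom K)) (Int.castRingHom L)]

/-- **`F₁(M)` (helper8's model of `X₁(M)`) lies in `FF_M`** -/
theorem F1_le [CharZero K] : laurentBaseChange K (F1 M) ≤ FFull M ζ := by
  unfold laurentBaseChange
  rw [IntermediateField.adjoin_le_iff]
  rintro _ ⟨x, hx, rfl⟩
  have hx' : x ∈ IntermediateField.adjoin ℚ (divisorExpansions M ∪ frickeGenerators M) := hx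
  clear hx
  induction hx' using IntermediateField.adjoin_induction with
  | mem x hx =>
    rcases hx with ⟨d, hd0, hd, rfl⟩ | ⟨a, ha, rfl⟩
    · show coeffMap (algebraMap ℚ K) (qExpand ℚ d jq) ∈ FFull M ζ
      rw [coeffMap_qExpand, ← jqModC_rat, coeffMap_jqModC]
      exact jDiv_mem h hd
    · show coeffMap (algebraMap ℚ K) (frickeH ℚ M a) ∈ FFull M ζ
      rw [coeffMap_frickeH, ← fF_row (ζ := ζ) ha]
      apply fF_mem
      intro h0
      exact ha (congrFun h0 0)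
  | algebraMap r =>
    show coeffMap (algebraMap ℚ K) (algebraMap ℚ (LaurentSeries ℚ) r) ∈ FFull M ζ
    rw [Fermat.Agent.S24.Degree.coeffMap_algebraMap']
    exact (FFull M ζ).algebraMap_mem _
  | add x y _ _ hx hy =>
    rw [SetLike.mem_coe, map_add]
    exact add_mem hx hy
  | inv x _ hx =>
    rw [SetLike.mem_coe, map_inv₀]
    exact inv_mem hx
  | mul x y _ _ hx hy =>
    rw [SetLike.mem_coe, map_mul]
    exact mul_mem hx hy

end OverK

end Fermat.Agent.S48.B.Igusa.Full.Extra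

end
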